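import Fermat.Agent.S37
import Fermat.Agent.GAL.GalHeckeWire
import Fermat.Agent.GAL.ChebWire
import Fermat.Agent.GAL.S29Wire
import Fermat.Agent.MAZ.Abs.Ext

/-!
# MAZ / Geo : instantiation of (FIN) for `J = J₀(N)`.  Basic definitions

* `actJ N`        : the Galois action on `J₀(N)(ℚ̄)` as a monoid homomorphism;
* `IsRat x`       : `x ∈ J₀(N)(ℚ)`;
* `heckeAway N T` : the ring generated by the `T_m`, `m` prime, `m ∉ T`;
* `IsEis c`       : `T_m c = (1 + m) c` for all primes `m ∤ N`;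
* `redJ N ℓ A`    : the reduction map `red_A ∘ B^* : J₀(N)(ℚ̄) → Pic⁰(X₀(N aux ℓ) / 𝔽̄_ℓ)` (the map used in S37).
-/

set_option autoImplicit false

noncomputable section

namespace Fermat.Agent.MAZ

open ModularCurve AlgebraicCurve
open Fermat.Agent.FLAT (Qb GQ)
open Fermat.Agent.RED (aux Bstar heckeInputsAlong')

/-- the Galois action on `J₀(N)(ℚ̄)`. -/
def actJ (N : ℕ) : GQ →* AddMonoid.End (JZero N) := DistribMulAction.toAddMonoidEnd GQ (JZero N)

@[simp] theorem actJ_apply (N : ℕ) (σ : GQ) (x : JZero N) : actJ N σ x = σ • x := rfl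

/-- rational points. -/
def IsRat {N : ℕ} (x : JZero N) : Prop := ∀ σ : GQ, σ • x = x

/-- the ring generated by the Hecke operators `T_m`, `m ∉ T`. -/
def heckeAway (N : ℕ) [NeZero N] (T : Finset ℕ) : Subalgebra ℤ (Module.End ℤ (JZero N)) :=
  Algebra.adjoin ℤ {t | ∃ m : Nat.Primes, (m : ℕ) ∉ T ∧ t = heckeOperatorBar N m}

/-- Eisenstein classes. -/
def IsEis {N : ℕ} [NeZero N] (c : JZero N) : Prop :=
  ∀ m : Nat.Primes, ¬ (m : ℕ) ∣ N → heckeOperatorBar N m c = (1 + (m : ℕ)) • c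

/-- the reduction map of S37. -/
def redJ (N ℓ : ℕ) [NeZero N] (A : ValuationSubring Qb) :
    JZero N →+ JZeroC (IsLocalRing.ResidueField A) (N * aux ℓ) :=
  (reductionModL A (N * aux ℓ)).comp (Bstar N (aux ℓ) (heckeInputsAlong' N (aux ℓ)))

theorem redJ_apply (N ℓ : ℕ) [NeZero N] (A : ValuationSubring Qb) (x : JZero N) :
    redJ N ℓ A x = reductionModL A (N * aux ℓ) (Bstar N (aux ℓ) (heckeInputsAlong' N (aux ℓ)) x) :=
  rfl

/-- elements of the Hecke ring commute with the Galois action. -/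
theorem heckeAway_smul {N : ℕ} [NeZero N] {T : Finset ℕ} {t : Module.End ℤ (JZero N)}
    (ht : t ∈ heckeAway N T) (σ : GQ) (x : JZero N) : t (σ • x) = σ • t x := by
  induction ht using Algebra.adjoin_induction generalizing x with
  | mem t ht =>
    obtain ⟨m, -, rfl⟩ := ht
    exact (Fermat.Agent.GAL.galHecke N m σ x).symm
  | algebraMap a =>
    rw [Module.algebraMap_end_apply, Module.algebraMap_end_apply, smul_comm]
  | add s t _ _ hs ht => rw [LinearMap.add_apply, LinearMap.add_apply, hs, ht, smul_add]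
  | mul s t _ _ hs ht => rw [Module.End.mul_apply, Module.End.mul_apply, ht, hs]

/-- a subgroup stable under the `T_m`, `m ∉ T`, is stable under `heckeAway N T`. -/
theorem heckeAway_mem {N : ℕ} [NeZero N] {T : Finset ℕ} {t : Module.End ℤ (JZero N)}
    (ht : t ∈ heckeAway N T) (S : AddSubgroup (JZero N))
    (hS : ∀ m : Nat.Primes, (m : ℕ) ∉ T → ∀ x ∈ S, heckeOperatorBar N m x ∈ S) :
    ∀ x ∈ S, t x ∈ S := by
  induction ht using Algebra.adjoin_induction with
  | mem t ht =>
    obtain ⟨m, hm, rfl⟩ := ht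
    exact hS m hm
  | algebraMap a =>
    intro x hx
    rw [Module.algebraMap_end_apply]
    exact S.zsmul_mem hx a
  | add s t _ _ hs ht => exact fun x hx => S.add_mem (hs x hx) (ht x hx)
  | mul s t _ _ hs ht => exact fun x hx => hs _ (ht x hx)

theorem IsRat.add {N : ℕ} {x y : JZero N} (hx : IsRat x) (hy : IsRat y) : IsRat (x + y) :=
  fun σ => by rw [smul_add, hx σ, hy σ]

theorem IsRat.nsmul {N : ℕ} {x : JZero N} (hx : IsRat x) (n : ℕ) : IsRat (n • x) :=
  fun σ => by
    have h := map_nsmul (DistribMulAction.toAddMonoidHom (JZero N) σ) n x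
    have h' : σ • (n • x) = n • (σ • x) := h
    rw [h', hx σ]

theorem IsRat.hecke {N : ℕ} [NeZero N] {T : Finset ℕ} {t : Module.End ℤ (JZero N)}
    (ht : t ∈ heckeAway N T) {x : JZero N} (hx : IsRat x) : IsRat (t x) :=
  fun σ => by rw [← heckeAway_smul ht, hx σ]

end Fermat.Agent.MAZ
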