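import Fermat.Agent.FLAT.Inst.Good
import Fermat.Agent.RED.GalEq.Abstract

/-!
# MAZ / Geo / [HEQ-G] : `FFG.Good` for the Prelude's reduction map of places `placeReductionModL h`

The reduction map of places is unique (Lemma U, `RED.ES.hom_eq_of_agree_on_principal`): the `r'` of `FLAT.exists_good` and the Prelude's
`placeReductionModL h` both send `div y` to `div ȳ` for the integral `q`-series `y`, and these generate the principal divisors.
-/

set_option autoImplicit false
set_option synthInstance.maxHeartbeats 400000

noncomputable section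

open AlgebraicCurve ModularCurve IntermediateField

namespace Fermat.Agent.MAZ

open Fermat.Agent.RED Fermat.Agent.S24 Fermat.Agent.S28 Fermat.Agent.RED.Gauss Fermat.Agent.FLAT

variable {ℓ : ℕ} [Fact ℓ.Prime] (M : ℕ) [NeZero M] (A : ValuationSubring Qb)
  (hA : A.LiesOverPrime ℓ) (hℓM : ¬ ℓ ∣ M)

omit [NeZero M] in
/-- two place reductions agree on the principal divisors. -/
theorem mapDomain_eq_of_isPlaceReduction
    {r r' : Place Qb (modularFunctionFieldBar M) →
      Place (IsLocalRing.ResidueField A)
        (modularFunctionFieldFullC (IsLocalRing.ResidueField A) M)}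
    (hr : IsPlaceReductionModL A M r) (hr' : IsPlaceReductionModL A M r')
    (hgen : PrincipalGeneratedByIntegral A (IsLocalRing.residue A) M)
    {D : Divisor Qb (modularFunctionFieldBar M)}
    (hD : D ∈ Divisor.principal (K := Qb) (F := modularFunctionFieldBar M)) :
    Finsupp.mapDomain r D = Finsupp.mapDomain r' D := by
  have hD' := hgen hD
  clear hD
  induction hD' using AddSubgroup.closure_induction with
  | mem E hE =>
    obtain ⟨y, hy, hyk, hne, hDy⟩ := hE
    ext Q
    rw [hr.2 y hy hyk hne E hDy Q, hr'.2 y hy hyk hne E hDy Q]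
  | zero => rw [Finsupp.mapDomain_zero, Finsupp.mapDomain_zero]
  | add E E' _ _ hE hE' => rw [Finsupp.mapDomain_add, Finsupp.mapDomain_add, hE, hE']
  | neg E _ hE =>
    rw [← Finsupp.mapDomain.addMonoidHom_apply, map_neg, Finsupp.mapDomain.addMonoidHom_apply, hE,
      ← Finsupp.mapDomain.addMonoidHom_apply r' (-E), map_neg,
      Finsupp.mapDomain.addMonoidHom_apply]

set_option maxHeartbeats 1600000 in
/-- **uniqueness of the reduction map of places.** -/
theorem placeReduction_eq_of_good
    {r r' : Place Qb (modularFunctionFieldBar M) →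
      Place (IsLocalRing.ResidueField A)
        (modularFunctionFieldFullC (IsLocalRing.ResidueField A) M)}
    (hr : IsPlaceReductionModL A M r)
    (hgen : PrincipalGeneratedByIntegral A (IsLocalRing.residue A) M)
    (G : FFG.Good (gaussData A M hA hℓM) r') : r = r' := by
  have := charP_residueField A hA
  have := isAlgClosed_residueField A
  obtain ⟨c, H⟩ := exists_deuringHyp_gaussData M A hA hℓM G.genus
  have hr' : IsPlaceReductionModL A M r' :=
    isPlaceReductionAlong_of_P1 (IsLocalRing.residue A) IsLocalRing.residue_surjective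
      (card_Q_pos M) (exists_isCoreExt M ℓ hℓM).choose_spec r'
      (fun P => by
        rw [(Cusp.isSepParam_jb M (IsLocalRing.ResidueField A) ℓ hℓM).deg_eq_one,
          (isSepParam_jF_deu M).deg_eq_one])
      G.p1
  have hnt := GalEq.nontrivial_place_bot H
  obtain ⟨P₀⟩ := H.nonempty_top
  have hpos : ∀ Q : Place (IsLocalRing.ResidueField A)
      (modularFunctionFieldFullC (IsLocalRing.ResidueField A) M),
      (0 : Divisor (IsLocalRing.ResidueField A)
        (modularFunctionFieldFullC (IsLocalRing.ResidueField A) M)) ≤ Finsupp.single Q 1 := by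
    intro Q Q'
    classical
    rw [Finsupp.single_apply]
    split_ifs <;> simp
  have h1 : ∀ (s : Place Qb (modularFunctionFieldBar M) →
      Place (IsLocalRing.ResidueField A)
        (modularFunctionFieldFullC (IsLocalRing.ResidueField A) M)) (P),
      Finsupp.mapDomain.addMonoidHom s (Finsupp.single P (1 : ℤ)) = Finsupp.single (s P) 1 :=
    fun s P => Finsupp.mapDomain_single
  have key := ES.hom_eq_of_agree_on_principal (GalEq.hasEffRep H P₀)
    (GalEq.cnt_eq_zero_of_principal H)
    (Finsupp.mapDomain.addMonoidHom r) (Finsupp.mapDomain.addMonoidHom r') 1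
    (fun P => by rw [h1]; exact hpos _) (fun P => by rw [h1, ES.cnt_single])
    (fun P => by rw [h1]; exact hpos _) (fun P => by rw [h1, ES.cnt_single])
    (fun D hD => mapDomain_eq_of_isPlaceReduction M A hr hr' hgen hD)
    (fun Q => by
      obtain ⟨Q', hQ'⟩ := exists_ne Q
      obtain ⟨P, rfl⟩ := G.surj Q'
      refine ⟨P, ?_⟩
      rw [h1]
      exact Finsupp.single_eq_of_ne fun h => hQ' h.symm)
  funext P
  have h3 := DFunLike.congr_fun key (Finsupp.single P 1)
  rw [h1, h1] at h3
  exact Finsupp.single_left_injective one_ne_zero h3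

/-- **[HEQ-G]** -/
theorem good_placeReductionModL' (h49 : 4 ∣ M ∨ 9 ∣ M) (h : ReductionInputsModL A M) :
    FFG.Good (gaussData A M hA hℓM) (placeReductionModL h) := by
  obtain ⟨r', G⟩ := exists_good M A hA hℓM h49
  rw [placeReduction_eq_of_good M A hA hℓM (isPlaceReductionModL_placeReductionModL h)
    h.choose_spec.2 G]
  exact G

end Fermat.Agent.MAZ
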