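import Fermat.Agent.RED.ES.Level
import Fermat.Agent.RED.ES.Degen
import Fermat.Agent.RED.S18Main

/-!
# MAZ / Geo / [HEQ-N] : `r_* T_m (div h) = 0` if `r_* (div h) = 0`       (level `M`, `m` prime, `m ∤ M`; residue characteristic arbitrary)

* `norm_red_formula` : by `RED.ES.qExpand_norm`
  `qExpand m (N_α (β y)) = y(q^(m²)) ∏_b rotR (ζ^b) y`, `y = ι y₀`.  All factors are integral (`ζ` is a unit of `A`:
  `mem_valuationSubring_of_pow_eq_one`), so `N_α (β y) = ι z₀` and the same formula holds for `π z₀`, `π y₀` and the image of `ζ`.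
* `norm_red_eq_one` : the case `π y₀ = 1`.
* `mapDomain_TDiv_eq_zero` : `D = div f`, `f = c a / b` with `a`, `b` integral of nonzero reduction (`exists_integral_quotient`);
  `div (π a) - div (π b) = r_* D = 0`, so `π a = e π b` with a constant `e` (a function without poles is constant); replace `b` by `u b`, `π u = e`.
  Then `π z_a = π z_b` by the formula and `r_* T_m D = div (π z_a) - div (π z_b) = 0`.
-/

set_option autoImplicit false
set_option synthInstance.maxHeartbeats 400000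

open AlgebraicCurve ModularCurve
open Fermat.Agent.S24 Fermat.Agent.GAL.HeckeInputs

namespace Fermat.Agent.MAZ

open Fermat.Agent.RED Fermat.Agent.RED.ES

noncomputable section

variable {M m : ℕ} [NeZero M] [NeZero m]

/-- the `q`-expansion formula for the norm, integrally and after reduction. -/
theorem norm_red_formula (hm : m.Prime) (hmM : ¬ m ∣ M) (A : ValuationSubring Kb)
    {k : Type*} [Field k] (π : A →+* k) :
    ∃ ζ : kˣ, ∀ (y₀ : LaurentSeries A) (hy : coeffMap A.subtype y₀ ∈ modularFunctionFieldBar M),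
      ∃ z₀ : LaurentSeries A,
        coeffMap A.subtype z₀ = (((letI := algebraAlong (heckeAlphaBar Kb M m);
          Algebra.norm (FN M) (heckeBetaBar Kb M m ⟨_, hy⟩) : FN M)) : LaurentSeries Kb) ∧
        qExpand k m (coeffMap π z₀) = qExpand k m (qExpand k m (coeffMap π y₀)) *
          ∏ b ∈ Finset.range m, rotR (ζ ^ b) (coeffMap π y₀) := by
  obtain ⟨ζ, hζ⟩ := HasEnoughRootsOfUnity.exists_primitiveRoot Kb m
  have hζ1 : ζ ^ m = 1 := hζ.pow_eq_one
  have hζi : (ζ⁻¹) ^ m = 1 := by rw [inv_pow, hζ1, inv_one]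
  have hζ0 : ζ ≠ 0 := hζ.ne_zero (NeZero.ne m)
  let ζA : Aˣ :=
    ⟨⟨ζ, mem_valuationSubring_of_pow_eq_one A (NeZero.ne m) hζ1⟩,
      ⟨ζ⁻¹, mem_valuationSubring_of_pow_eq_one A (NeZero.ne m) hζi⟩,
      Subtype.ext (mul_inv_cancel₀ hζ0), Subtype.ext (inv_mul_cancel₀ hζ0)⟩
  have hprim : IsPrimitiveRoot (Units.map (A.subtype : A →* Kb) ζA) m := by
    rw [← IsPrimitiveRoot.coe_units_iff]
    exact hζ
  refine ⟨Units.map (π : A →* k) ζA, fun y₀ hy => ?_⟩
  have h := qExpand_norm M m hm hmM _ hprim ⟨_, hy⟩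
  set w : LaurentSeries A := qExpand A m (qExpand A m y₀) *
    ∏ b ∈ Finset.range m, rotR (ζA ^ b) y₀ with hw
  have hιw : coeffMap A.subtype w = qExpand Kb m (((letI := algebraAlong (heckeAlphaBar Kb M m);
          Algebra.norm (FN M) (heckeBetaBar Kb M m ⟨_, hy⟩) : FN M)) : LaurentSeries Kb) := by
    rw [h, hw, map_mul, coeffMap_qExpand, coeffMap_qExpand, map_prod]
    congr 1
    refine Finset.prod_congr rfl fun b _ => ?_
    rw [coeffMap_rotR, map_pow]
  obtain ⟨z₀, hz₀, hz₀w⟩ := exists_of_qExpand_eq A.subtype A.subtype_injective m _ w hιw.symm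
  refine ⟨z₀, hz₀, ?_⟩
  rw [← coeffMap_qExpand, hz₀w, hw, map_mul, coeffMap_qExpand, coeffMap_qExpand, map_prod]
  congr 1
  refine Finset.prod_congr rfl fun b _ => ?_
  rw [coeffMap_rotR, map_pow]

/-- **[HEQ-N1]** -/
theorem norm_red_eq_one (hm : m.Prime) (hmM : ¬ m ∣ M) (A : ValuationSubring Kb)
    {k : Type*} [Field k] (π : A →+* k)
    (y₀ : LaurentSeries A) (hy : coeffMap A.subtype y₀ ∈ modularFunctionFieldBar M)
    (h1 : coeffMap π y₀ = 1) :
    ∃ z₀ : LaurentSeries A,
      coeffMap A.subtype z₀ = (((letI := algebraAlong (heckeAlphaBar Kb M m);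
        Algebra.norm (FN M) (heckeBetaBar Kb M m ⟨_, hy⟩) : FN M)) : LaurentSeries Kb) ∧
      coeffMap π z₀ = 1 := by
  obtain ⟨ζ, hζ⟩ := norm_red_formula hm hmM A π
  obtain ⟨z₀, hz₀, hz⟩ := hζ y₀ hy
  refine ⟨z₀, hz₀, ?_⟩
  apply qExpand_injective (R := k) m
  rw [hz, h1, map_one, map_one, one_mul]
  exact Finset.prod_eq_one fun b _ => map_one _

theorem ne_zero_of_formula {k : Type*} [Field k] (ζ : kˣ) {y z : LaurentSeries k} (hy : y ≠ 0)
    (h : qExpand k m z = qExpand k m (qExpand k m y) * ∏ b ∈ Finset.range m, rotR (ζ ^ b) y) :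
    z ≠ 0 := by
  rintro rfl
  rw [map_zero] at h
  have h1 : qExpand k m (qExpand k m y) ≠ 0 := by
    rw [Ne, map_eq_zero_iff _ (qExpand_injective (R := k) m),
      map_eq_zero_iff _ (qExpand_injective (R := k) m)]
    exact hy
  have h2 : ∏ b ∈ Finset.range m, rotR (ζ ^ b) y ≠ 0 := by
    rw [Finset.prod_ne_zero_iff]
    intro b _
    rw [Ne, map_eq_zero_iff _ (rotR_injective _)]
    exact hy
  exact mul_ne_zero h1 h2 h.symm

set_option maxHeartbeats 1600000 in
/-- **[HEQ-N2]** -/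
theorem mapDomain_TDiv_eq_zero {ℓ : ℕ} [Fact ℓ.Prime] (hm : m.Prime) (hmM : ¬ m ∣ M)
    (hℓM : ¬ ℓ ∣ M) (A : ValuationSubring Kb) (hA : A.LiesOverPrime ℓ)
    {r : Place Kb (FN M) → Place (IsLocalRing.ResidueField A)
      (modularFunctionFieldFullC (IsLocalRing.ResidueField A) M)}
    (hr : IsPlaceReductionAlong A (IsLocalRing.residue A) M r)
    {D : Divisor Kb (FN M)} (hD : D ∈ Divisor.principal (K := Kb) (F := FN M))
    (h0 : Finsupp.mapDomain r D = 0) : Finsupp.mapDomain r (TDiv M m D) = 0 := by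
  haveI := charP_residueField A hA
  haveI := isAlgClosed_residueField A
  have hπ : Function.Surjective (IsLocalRing.residue A) := IsLocalRing.residue_surjective
  have hcore := (exists_isCoreExt M ℓ hℓM).choose_spec
  obtain ⟨f, hf0, hDf⟩ := hD
  have hf0' : (f : LaurentSeries Kb) ≠ 0 := fun h0 => hf0 (Subtype.ext h0)
  obtain ⟨c, a, b, hc, ha, hb, ha0, hb0, hrel⟩ :=
    exists_integral_quotient (IsLocalRing.residue A) hπ (card_Q_pos M) hcore
      (f : LaurentSeries Kb) f.2 hf0'
  have hmem : ∀ y : LaurentSeries A, coeffMap A.subtype y ∈ modularFunctionFieldBar M →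
      coeffMap (IsLocalRing.residue A) y ∈
        modularFunctionFieldFullC (IsLocalRing.ResidueField A) M := fun y hy =>
    coeffMap_mem_fullC_of_integral (IsLocalRing.residue A) hπ (card_Q_pos M) hcore y hy
  have hinj : ∀ y : LaurentSeries A, coeffMap (IsLocalRing.residue A) y ≠ 0 →
      ∀ hy : coeffMap A.subtype y ∈ modularFunctionFieldBar M,
        (⟨coeffMap A.subtype y, hy⟩ : FN M) ≠ 0 := by
    intro y hy0 hy h0
    have h1 : coeffMap A.subtype y = 0 := congrArg Subtype.val h0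
    have h2 : y = 0 := Gauss.iota_injective A (by rw [map_zero]; exact h1)
    exact hy0 (by rw [h2, map_zero])
  set fa : FN M := ⟨coeffMap A.subtype a, ha⟩ with hfa
  set fb : FN M := ⟨coeffMap A.subtype b, hb⟩ with hfb
  have hfa0 : fa ≠ 0 := hinj a ha0 ha
  have hfb0 : fb ≠ 0 := hinj b hb0 hb
  obtain ⟨Da, hDa, -⟩ := HasPrincipalDivisors.exists_divisor (K := Kb) fa hfa0
  obtain ⟨Db, hDb, -⟩ := HasPrincipalDivisors.exists_divisor (K := Kb) fb hfb0
  have hrelF : f * fb = algebraMap Kb _ c * fa := Subtype.ext hrel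
  have hcF : algebraMap Kb (FN M) c ≠ 0 := by rw [Ne, map_eq_zero]; exact hc
  have hDeq : D = Da - Db := by
    ext v
    rw [Finsupp.sub_apply, hDf, hDa, hDb]
    have h1 := congrArg v.ord hrelF
    rw [v.ord_mul hf0 hfb0, v.ord_mul hcF hfa0, Place.ord_algebraMap] at h1
    omega
  set ab : modularFunctionFieldFullC (IsLocalRing.ResidueField A) M :=
    ⟨coeffMap (IsLocalRing.residue A) a, hmem a ha⟩ with hab
  set bb : modularFunctionFieldFullC (IsLocalRing.ResidueField A) M :=
    ⟨coeffMap (IsLocalRing.residue A) b, hmem b hb⟩ with hbb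
  have hab0 : ab ≠ 0 := fun h => ha0 (congrArg Subtype.val h)
  have hbb0 : bb ≠ 0 := fun h => hb0 (congrArg Subtype.val h)
  have hra : ∀ Q, Finsupp.mapDomain r Da Q = Q.ord ab := hr.2 a ha _ ha0 Da hDa
  have hrb : ∀ Q, Finsupp.mapDomain r Db Q = Q.ord bb := hr.2 b hb _ hb0 Db hDb
  have hsub : ∀ X Y : Divisor Kb (FN M), Finsupp.mapDomain r (X - Y) =
      Finsupp.mapDomain r X - Finsupp.mapDomain r Y :=
    fun X Y => map_sub (Finsupp.mapDomain.addMonoidHom r) X Y
  have hord : ∀ Q : Place (IsLocalRing.ResidueField A)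
      (modularFunctionFieldFullC (IsLocalRing.ResidueField A) M), Q.ord (ab / bb) = 0 := by
    intro Q
    rw [div_eq_mul_inv, Q.ord_mul hab0 (inv_ne_zero hbb0), Place.ord_inv, ← hra, ← hrb]
    have h1 := DFunLike.congr_fun h0 Q
    rw [hDeq, hsub, Finsupp.sub_apply, Finsupp.zero_apply] at h1
    omega
  obtain ⟨e, he⟩ := (isSepParam_jb_residue A M hA hℓM).mem_range_of_forall_ord_nonneg
    (f := ab / bb) (fun Q => (hord Q).ge)
  obtain ⟨u, rfl⟩ := hπ e
  have hu0 : (u : Kb) ≠ 0 := by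
    intro hu
    have hu' : u = 0 := Subtype.ext hu
    rw [hu', map_zero, map_zero] at he
    exact div_ne_zero hab0 hbb0 he.symm
  set b' : LaurentSeries A := HahnSeries.single 0 u * b with hb'def
  have hιb' : coeffMap A.subtype b' =
      algebraMap Kb (LaurentSeries Kb) (u : Kb) * coeffMap A.subtype b := by
    rw [hb'def, map_mul, coeffMap_single, algebraMap_laurentSeries_eq_single]
    rfl
  have hb' : coeffMap A.subtype b' ∈ modularFunctionFieldBar M := by
    rw [hιb']
    exact mul_mem (IntermediateField.algebraMap_mem _ _) hb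
  have hπb' : coeffMap (IsLocalRing.residue A) b' = coeffMap (IsLocalRing.residue A) a := by
    have h1 := congrArg Subtype.val ((eq_div_iff hbb0).mp he)
    rw [hb'def, map_mul, coeffMap_single, ← algebraMap_laurentSeries_eq_single]
    exact h1
  have hDb' : ∀ P, Db P = P.ord (⟨coeffMap A.subtype b', hb'⟩ : FN M) := by
    intro P
    have h1 : (⟨coeffMap A.subtype b', hb'⟩ : FN M) = algebraMap Kb (FN M) (u : Kb) * fb :=
      Subtype.ext hιb'
    have h2 : algebraMap Kb (FN M) (u : Kb) ≠ 0 := by rw [Ne, map_eq_zero]; exact hu0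
    rw [h1, P.ord_mul h2 hfb0, Place.ord_algebraMap, zero_add, hDb]
  have hb'0 : coeffMap (IsLocalRing.residue A) b' ≠ 0 := by rw [hπb']; exact ha0
  obtain ⟨ζ, hζ⟩ := norm_red_formula hm hmM A (IsLocalRing.residue A)
  obtain ⟨za, hza, hza'⟩ := hζ a ha
  obtain ⟨zb, hzb, hzb'⟩ := hζ b' hb'
  have hzeq : coeffMap (IsLocalRing.residue A) za = coeffMap (IsLocalRing.residue A) zb :=
    qExpand_injective (R := IsLocalRing.ResidueField A) m (by rw [hza', hzb', hπb'])
  have hza0 : coeffMap (IsLocalRing.residue A) za ≠ 0 := ne_zero_of_formula ζ ha0 hza'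
  have hzb0 : coeffMap (IsLocalRing.residue A) zb ≠ 0 := ne_zero_of_formula ζ hb'0 hzb'
  have hzaF : coeffMap A.subtype za ∈ modularFunctionFieldBar M := by
    rw [hza]; exact Subtype.property _
  have hzbF : coeffMap A.subtype zb ∈ modularFunctionFieldBar M := by
    rw [hzb]; exact Subtype.property _
  have hTa := hr.2 za hzaF (hmem za hzaF) hza0 (TDiv M m Da) (fun P => by
    rw [TDiv_apply_of_isDiv hfa0 hDa P]
    congr 1
    exact Subtype.ext hza.symm)
  have hTb := hr.2 zb hzbF (hmem zb hzbF) hzb0 (TDiv M m Db) (fun P => by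
    rw [TDiv_apply_of_isDiv (hinj b' hb'0 hb') hDb' P]
    congr 1
    exact Subtype.ext hzb.symm)
  rw [hDeq, map_sub, hsub, sub_eq_zero]
  ext Q
  rw [hTa, hTb]
  congr 1
  exact Subtype.ext hzeq

end

end Fermat.Agent.MAZ
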