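import Fermat.Agent.MAZ.Geo.HeqAbs
import Fermat.Agent.MAZ.Geo.HeqNorm
import Fermat.Agent.MAZ.Geo.Basic
import Fermat.Agent.FLAT.Inst.Good
import Fermat.Agent.MAZ.Geo.HeqG

/-!
# MAZ / Geo / [HEQ] : the Hecke operators `T_m` preserve the kernel of `redJ N ℓ A`      (`m` prime, `m ∤ N * aux ℓ`)

`M := N * aux ℓ`, `h := RED.reductionInputsModL_aux N hℓN A hA`, `r := placeReductionModL h`
(`isPlaceReductionModL_placeReductionModL h : IsPlaceReductionAlong ..`, `reductionModL_mk h`).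

* `good_placeReductionModL` [HEQ-G] : `FFG.Good (gaussData A M hA hℓM) (placeReductionModL h)`.
  The proof of `FLAT.exists_good` only uses `hsurj` and `hP1 : GalEq.IsP1 _ r` of the `r` it constructs.  EITHER redo it for `r := placeReductionModL h`
  (`IsP1` from `IsPlaceReductionAlong` : elements of `(gaussData ..).O` are the `coeffMap A.subtype y`, `red` is `coeffMap π y`; surjectivity:
  `RED.ES.mem_range_of_ord_ne_zero`), OR show that the `r'` of `exists_good` equals `placeReductionModL h` by Lemma U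
  (`RED.ES.hom_eq_of_agree_on_principal`, both `r_*`, `r'_*` send `div f` to `div (red f)`).
* `redJ_hecke` [HEQ] : `x = [D]`.  `Bstar x = [B^* D]` (`rfl`, see the proof of `RED.reduction_hecke`), `redJ x = [r_* B^* D]`, so `r_* B^* D` is principal.
  `exists_rep_mapDomain_eq_zero` : `B^* D = D' + div f`, `r_* D' = 0`.  `Φ := r_* ∘ TDiv M m` is bounded on places (`TDiv` of a place is effective of
  degree `m + 1` : `RED.ES.TDiv_single_nonneg`, `RED.ES.cnt_TDiv_single`, `RED.ES.apply_le_cnt`, `cnt_mapDomain`) and kills `𝒟₀ ∩ Prin` (`mapDomain_TDiv_eq_zero`), so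
  `r_* T_m D' = 0` (`eq_zero_of_bounded`).  `T_m (div f)` is principal (`TDiv_apply_of_isDiv`) and `r_*` of a principal divisor is principal
  (`FFG.isPrincipal_mapDomain`).  Finally `B^* T_m^{(N)} D = T_m^{(M)} B^* D` (`RED.ES.pullbackAlong_heckeDivBar`, needs `m ∤ N * aux ℓ`).
-/

set_option autoImplicit false
set_option synthInstance.maxHeartbeats 400000

noncomputable section

open AlgebraicCurve ModularCurve

namespace Fermat.Agent.MAZ

open Fermat.Agent.RED hiding GQ Kb
open Fermat.Agent.S24 Fermat.Agent.FLAT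

/-- **[HEQ-G]** -/
theorem good_placeReductionModL {ℓ : ℕ} [Fact ℓ.Prime] (M : ℕ) [NeZero M] (A : ValuationSubring Qb)
    (hA : A.LiesOverPrime ℓ) (hℓM : ¬ ℓ ∣ M) (h49 : 4 ∣ M ∨ 9 ∣ M)
    (h : ReductionInputsModL A M) :
    FFG.Good (gaussData A M hA hℓM) (placeReductionModL h) :=
  good_placeReductionModL' M A hA hℓM h49 h

open Fermat.Agent.GAL.HeckeInputs Fermat.Agent.RED.ES Fermat.Agent.FFG in
set_option maxHeartbeats 1600000 in
/-- **[HEQ-M]** at the level `M`. -/
theorem reductionModL_hecke {ℓ : ℕ} [Fact ℓ.Prime] (M : ℕ) [NeZero M] (A : ValuationSubring Qb)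
    (hA : A.LiesOverPrime ℓ) (hℓM : ¬ ℓ ∣ M) (h49 : 4 ∣ M ∨ 9 ∣ M)
    (h : ReductionInputsModL A M) (m : Nat.Primes) (hm : ¬ (m : ℕ) ∣ M) (x : JZero M)
    (hx : reductionModL A M x = 0) : reductionModL A M (heckeOperatorBar M m x) = 0 := by
  haveI : NeZero (m : ℕ) := ⟨m.2.ne_zero⟩
  haveI : IsAlgClosed (IsLocalRing.ResidueField A) := GalEq.isAlgClosed_residueField A
  have G := good_placeReductionModL M A hA hℓM h49 h
  have hrr := isPlaceReductionModL_placeReductionModL h
  obtain ⟨D, rfl⟩ := Pic0.mk_surjective x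
  rw [reductionModL_mk h, TorsES.mk_eq_zero_iff] at hx
  change reductionModL A M (heckeOperatorAlong Qb M m (Pic0.mk D)) = 0
  rw [heckeOperatorAlong_eq' M m]
  have hT : heckePic0Bar (heckeAlphaBarIntegral M m) (heckeBetaBarIntegral M m)
        (fundamentalIdentityAlong_beta M m) (finiteAlong_alpha M m) (normFormulaAlong_alpha M m)
        (Pic0.mk D) =
      Pic0.mk (Pic0.degZeroCorrespondence (heckeBetaBar Qb M m) (heckeAlphaBar Qb M m)
        (heckeBetaBarIntegral M m) (heckeAlphaBarIntegral M m)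
        (fundamentalIdentityAlong_beta M m) D) := rfl
  rw [hT, reductionModL_mk h, TorsES.mk_eq_zero_iff]
  change Divisor.IsPrincipal (Finsupp.mapDomain (placeReductionModL h)
    (TDiv M m (D : Divisor Qb (FN M))))
  have hx' : Divisor.IsPrincipal (Finsupp.mapDomain (placeReductionModL h)
    (D : Divisor Qb (FN M))) := hx
  obtain ⟨P₀, hP₀⟩ := exists_rep_mapDomain_eq_zero G
  obtain ⟨P, hP, hPp⟩ := hP₀ D (Divisor.mem_degZero.mp D.2) hx'
  set D' : Divisor Qb (FN M) := sumP P - sumP P₀ with hD'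
  have hD'0 : D'.mapDomain (placeReductionModL h) = 0 := by
    rw [hD', Flip.mapDomain_sub', Flip.mapDomain_sumP, Flip.mapDomain_sumP,
      show (fun i => placeReductionModL h (P i)) = fun i => placeReductionModL h (P₀ i) from
        funext hP, sub_self]
  have hD'deg : Divisor.degree D' = 0 := by
    obtain ⟨x₀, hx₀⟩ := G.sep
    rw [hD', map_sub, Flip.degree_sumP hx₀, Flip.degree_sumP hx₀, sub_self]
  have hΦ : ((Finsupp.mapDomain.addMonoidHom (placeReductionModL h)).comp (TDiv M m)) D' = 0 := by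
    refine eq_zero_of_bounded G _ ((m : ℕ) + 1) ?_ ?_ hD'deg hD'0
    · intro P Q
      have h0 : 0 ≤ Finsupp.mapDomain (placeReductionModL h) (TDiv M m (Finsupp.single P 1)) :=
        ES.mapDomain_nonneg _ (TDiv_single_nonneg P)
      have h1 := apply_le_cnt h0 Q
      rw [cnt_mapDomain, cnt_TDiv_single m.2 hm] at h1
      change |Finsupp.mapDomain (placeReductionModL h) (TDiv M m (Finsupp.single P 1)) Q| ≤ _
      rw [abs_of_nonneg (h0 Q)]
      exact h1
    · intro E hE hE0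
      exact mapDomain_TDiv_eq_zero m.2 hm hℓM A hA hrr hE hE0
  have hΦ' : Finsupp.mapDomain (placeReductionModL h) (TDiv M m D') = 0 := hΦ
  have e : (D : Divisor Qb (FN M)) = ((D : Divisor Qb (FN M)) - D') + D' := by abel
  rw [e, map_add, Finsupp.mapDomain_add, hΦ', add_zero]
  apply FFG.isPrincipal_mapDomain G
  exact Divisor.correspondence_mem_principal _ _ _ _ (finiteAlong_alpha M m)
    (normFormulaAlong_alpha M m) hPp

open Fermat.Agent.GAL.HeckeInputs in
set_option maxHeartbeats 1600000 in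
/-- `B^* T_m = T_m B^*` on classes. -/
theorem Bstar_heckeOperatorBar (N c : ℕ) [NeZero N] [NeZero c] (hB : HeckeInputsAlong Qb N c)
    (m : Nat.Primes) (hm : ¬ (m : ℕ) ∣ N * c) (x : JZero N) :
    Bstar N c hB (heckeOperatorBar N m x) = heckeOperatorBar (N * c) m (Bstar N c hB x) := by
  haveI : NeZero (m : ℕ) := ⟨m.2.ne_zero⟩
  obtain ⟨D, rfl⟩ := Pic0.mk_surjective x
  have hBs : ∀ E : Divisor.degZero (K := Qb) (F := modularFunctionFieldBar N),
      Bstar N c hB (Pic0.mk E) = Pic0.mk (pullDegZero (heckeBetaBar Qb N c)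
        (heckeBetaBarIntegral N c) (fundamentalIdentityAlong_beta N c) E) := fun _ => rfl
  have hT : ∀ (M : ℕ) [NeZero M] (E : Divisor.degZero (K := Qb) (F := modularFunctionFieldBar M)),
      heckeOperatorBar M m (Pic0.mk E) =
      Pic0.mk (Pic0.degZeroCorrespondence (heckeBetaBar Qb M m) (heckeAlphaBar Qb M m)
        (heckeBetaBarIntegral M m) (heckeAlphaBarIntegral M m)
        (fundamentalIdentityAlong_beta M m) E) := by
    intro M _ E
    change heckeOperatorAlong Qb M m (Pic0.mk E) = _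
    rw [heckeOperatorAlong_eq' M m]
    rfl
  rw [hT, hBs, hBs, hT]
  refine congrArg Pic0.mk (Subtype.ext ?_)
  exact ES.pullbackAlong_heckeDivBar N c m m.2 hm D

/-- **[HEQ]** -/
theorem redJ_hecke {N ℓ : ℕ} [NeZero N] (hℓ : ℓ.Prime) (hℓN : ¬ ℓ ∣ N) (A : ValuationSubring Qb)
    (hA : A.LiesOverPrime ℓ) (m : Nat.Primes) (hm : ¬ (m : ℕ) ∣ N * aux ℓ) (x : JZero N)
    (hx : redJ N ℓ A x = 0) : redJ N ℓ A (heckeOperatorBar N m x) = 0 := by
  haveI : Fact ℓ.Prime := ⟨hℓ⟩
  have h49 : 4 ∣ N * aux ℓ ∨ 9 ∣ N * aux ℓ := by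
    rcases aux_eq ℓ with h | h <;> rw [h] <;> simp
  rw [redJ_apply] at hx ⊢
  rw [Bstar_heckeOperatorBar N (aux ℓ) _ m hm]
  exact reductionModL_hecke (N * aux ℓ) A hA (not_dvd_mul_aux hℓ hℓN) h49
    (reductionInputsModL_aux N hℓN A hA) m hm _ hx

/-- `redJ` is injective on torsion prime to `ℓ` (S18 + `Bstar_eq_zero_of_torsion`; last bullet of the proof of
`RED.specializationExists`). -/
theorem redJ_eq_zero_of_torsion {N ℓ : ℕ} [NeZero N] (hℓ : ℓ.Prime) (hℓN : ¬ ℓ ∣ N)
    (A : ValuationSubring Qb) (hA : A.LiesOverPrime ℓ) {n : ℕ} (hn : ¬ ℓ ∣ n) {x : JZero N}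
    (hx : n • x = 0) (h0 : redJ N ℓ A x = 0) : x = 0 := by
  haveI : Fact ℓ.Prime := ⟨hℓ⟩
  rw [redJ_apply] at h0
  have h1 : Bstar N (aux ℓ) (heckeInputsAlong' N (aux ℓ)) x = 0 := by
    refine Fermat.Agent.S18.result (N * aux ℓ) (not_dvd_mul_aux hℓ hℓN) A hA
      (reductionInputsModL_aux N hℓN A hA) n hn _ ?_ h0
    rw [← map_nsmul, hx, map_zero]
  have hn0 : n ≠ 0 := by
    rintro rfl
    exact hn (dvd_zero ℓ)
  exact Bstar_eq_zero_of_torsion N (aux ℓ) (aux_eq ℓ) _ x n hn0 hx h1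

end Fermat.Agent.MAZ
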