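import Fermat.Agent.MAZ.Geo.Eps

/-!
# MAZ / Geo / [WEIL] : the Weil pairing on `J₀(N)[r^k]` in the shape `IsPerfPair`

All properties are in `S19/B` and at the beginning of `Fermat/Agent/S19.lean` (`eM_ne_zero`, `eM_add_left`, `eM_add_right`, `eM_smul`, `eM_nondeg`;
right non-degeneracy: `S19.weil_swap`).  Only the change of carrier (`torsSub` versus `Submodule.torsionBy`) has to be done.
-/

set_option autoImplicit false
set_option synthInstance.maxHeartbeats 400000

noncomputable section

namespace Fermat.Agent.MAZ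

open ModularCurve AlgebraicCurve
open Fermat.Agent.FLAT (Qb GQ)

theorem geo_tors_stable (N n : ℕ) (σ : GQ) :
    ∀ t ∈ torsSub (JZero N) n, actJ N σ t ∈ torsSub (JZero N) n := by
  intro t ht
  rw [mem_torsSub] at ht ⊢
  rw [actJ_apply, ← smul_nsmul_comm, ht]
  exact smul_zero (A := JZero N) σ

/-- the Weil pairing of level `n` on `J₀(N)`. -/
def weilJ (N : ℕ) [NeZero N] (n : ℕ) (x y : JZero N) : Qb := Fermat.Agent.S19.weil n x y

/-- **[WEIL]** -/
theorem geo_weil (N : ℕ) [NeZero N] {r : ℕ} (hr : r.Prime) (k : ℕ) :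
    IsPerfPair (subAct (actJ N) (torsSub (JZero N) (r ^ k)) (geo_tors_stable N (r ^ k)))
      (subAct (actJ N) (torsSub (JZero N) (r ^ k)) (geo_tors_stable N (r ^ k)))
      (fun x y => weilJ N (r ^ k) x y) := by
  have ht : ∀ x : torsSub (JZero N) (r ^ k), r ^ k • (x : JZero N) = 0 := fun x => x.2
  have hnd : ∀ x : torsSub (JZero N) (r ^ k),
      (∀ y : torsSub (JZero N) (r ^ k), weilJ N (r ^ k) x y = 1) → x = 0 := by
    intro x hx
    exact Subtype.ext (S19.weil_nondeg hr k (S19.divisible_cover r hr.pos) (ht x)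
      (fun y hy => hx ⟨y, hy⟩))
  refine ⟨fun x y => S19.weil_ne_zero _ _ _, fun x x' y => S19.weil_add_left (ht x) (ht x') (ht y),
    fun x y y' => S19.weil_add_right (ht x) (ht y) (ht y'), hnd, ?_, ?_⟩
  · intro y hy
    refine hnd y fun x => ?_
    show S19.weil (r ^ k) (y : JZero N) (x : JZero N) = 1
    rw [S19.weil_swap (ht x) (ht y)]
    have := hy x
    have h2 : S19.weil (r ^ k) (x : JZero N) (y : JZero N) = 1 := this
    rw [h2, inv_one]
  · intro σ x y
    exact S19.weil_smul (S19.galM N σ) (ht x) (ht y)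

end Fermat.Agent.MAZ
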