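import Fermat.Agent.MAZ.Geo.Unip
import Fermat.Agent.MAZ.Geo.Weil
import Fermat.Agent.MAZ.Geo.Heq
import Fermat.Agent.MAZ.Hopf.Main
import Fermat.Agent.MAZ.Abs.End
import Fermat.Agent.S17.Final

/-!
# MAZ / Geo / Main : (FIN) for `J₀(N)`, `N` prime

* `exists_jacHyp` : the hypotheses `JacHyp` of helper77's master statement hold for `J = J₀(N)`, `ε` = the Eisenstein projector.
* `fin_main` : there is `c₀` such that for all `k ≥ c₀` there is `ε` (a polynomial in the `T_m`, `m ∉ T`, `m ∤ N`) fixing the Eisenstein classes with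
  `ε y ∈ J(ℚ)[r^c₀] + r^(k - c₀) J(ℚ)` for all `y ∈ J(ℚ)`.

No `sorry` of its own.
-/

set_option autoImplicit false
set_option synthInstance.maxHeartbeats 400000

noncomputable section

namespace Fermat.Agent.MAZ

open ModularCurve AlgebraicCurve
open Fermat.Agent.FLAT (Qb GQ)

theorem exists_jacHyp {N r : ℕ} [NeZero N] [Fact r.Prime] (hN : N.Prime) (hrN : r ≠ N)
    (Ar AN : ValuationSubring Qb) (hAN : AN.LiesOverPrime N) (k : ℕ) [NeZero (r ^ k)]
    (T : Finset ℕ) :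
    ∃ (ε : AddMonoid.End (JZero N)) (S : AddSubgroup (JZero N)),
      JacHyp r N Ar AN (actJ N) k ε S (weilJ N (r ^ k)) ∧
      (∀ c : JZero N, (∀ m : Nat.Primes, (m : ℕ) ∉ T → ¬ (m : ℕ) ∣ N →
        heckeOperatorBar N m c = (1 + (m : ℕ)) • c) → ε c = c) ∧
      (∀ S : AddSubgroup (JZero N),
        (∀ m : Nat.Primes, (m : ℕ) ∉ T → ¬ (m : ℕ) ∣ N → ∀ x ∈ S, heckeOperatorBar N m x ∈ S) →
          ∀ x ∈ S, ε x ∈ S) := by
  have hr : r.Prime := Fact.out
  have hrN' : ¬ r ∣ N := fun h => hrN ((Nat.prime_dvd_prime_iff_eq hr hN).1 h)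
  obtain ⟨ε, comm, idem, heis, hst, hU⟩ := exists_eps (N := N) hr k T
  obtain ⟨S, hS1, hS2, hP⟩ := exists_perp comm idem (geo_fin N hr.pos k) (weilJ N (r ^ k))
    (geo_tors_stable N (r ^ k)) (geo_weil N hr k)
  refine ⟨ε, S, ?_, heis, hst⟩
  exact
    { comm := comm
      idem := idem
      fin := geo_fin N hr.pos k
      smooth := geo_smooth N
      unr := by
        intro q hq hqr hqN
        obtain ⟨B, hB⟩ := Fermat.Agent.S54.exists_liesOverPrime hq
        refine ⟨B, hB, fun σ hσ z hz => ?_⟩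
        have hq' : ¬ q ∣ N * r := by
          intro h
          rcases (Nat.Prime.dvd_mul hq).1 h with h | h
          · exact hqN ((Nat.prime_dvd_prime_iff_eq hq hN).1 h)
          · exact hqr ((Nat.prime_dvd_prime_iff_eq hq hr).1 h)
        exact geo_unr hq hq' B hB hσ k z (hz σ)
      S_tors := hS1
      S_stable := hS2
      pair := hP
      unip := hU
      unipN := fun σ hσ σ' hσ' z hz => geo_unipN hN hr hrN AN hAN hσ hσ' k z hz
      hopfX := fun z0 hz0 => hopfX_jac N hrN' k comm idem z0 hz0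
      hopfS := hopfS_jac N hrN' k S hS1 hS2 }

/-- the group of rational points. -/
def ratSub (N : ℕ) : AddSubgroup (JZero N) := FixedPoints.addSubgroup GQ (JZero N)

theorem mem_ratSub {N : ℕ} {x : JZero N} : x ∈ ratSub N ↔ IsRat x := Iff.rfl

theorem ratSub_fg (N : ℕ) [NeZero N] : (ratSub N).FG :=
  (AddGroup.fg_iff_addSubgroup_fg _).1 (Fermat.Agent.S17.mordellWeil N)

/-- the rational torsion is finite (Mordell-Weil). -/
theorem finite_rat_torsion (N : ℕ) [NeZero N] :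
    {t : JZero N | IsRat t ∧ ∃ n : ℕ, n ≠ 0 ∧ n • t = 0}.Finite := by
  have : AddGroup.FG (ratSub N) := Fermat.Agent.S17.mordellWeil N
  have : Module.Finite ℤ (ratSub N) := Module.Finite.iff_addGroup_fg.2 inferInstance
  let Tt : Submodule ℤ (ratSub N) := Submodule.torsion ℤ (ratSub N)
  have : Module.Finite ℤ Tt := Module.IsNoetherian.finite ℤ Tt
  have : AddGroup.FG Tt := Module.Finite.iff_addGroup_fg.1 inferInstance
  have hT : Finite Tt := by
    refine AddCommGroup.finite_of_fg_isAddTorsion Tt fun t => ?_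
    obtain ⟨a, ha⟩ := (Submodule.mem_torsion_iff (t : ratSub N)).1 t.2
    have ha0 : (a : ℤ) ≠ 0 := nonZeroDivisors.coe_ne_zero a
    rw [isOfFinAddOrder_iff_nsmul_eq_zero]
    refine ⟨(a : ℤ).natAbs, Int.natAbs_pos.2 ha0, ?_⟩
    apply Subtype.ext
    have h1 : (a : ℤ) • (t : ratSub N) = 0 := ha
    have h2 : ((a : ℤ).natAbs : ℤ) • (t : ratSub N) = 0 := by
      rcases Int.natAbs_eq (a : ℤ) with h | h
      · rw [← h]; exact h1
      · have : ((a : ℤ).natAbs : ℤ) = -(a : ℤ) := by omega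
        rw [this, neg_smul, h1, neg_zero]
    rw [natCast_zsmul] at h2
    exact h2
  have hfin : (Set.range fun t : Tt => (((t : ratSub N)) : JZero N)).Finite := Set.finite_range _
  refine hfin.subset ?_
  rintro t ⟨ht, n, hn, hnt⟩
  refine ⟨⟨⟨t, ht⟩, ?_⟩, rfl⟩
  rw [Submodule.mem_torsion_iff]
  refine ⟨⟨(n : ℤ), mem_nonZeroDivisors_of_ne_zero (by exact_mod_cast hn)⟩, ?_⟩
  apply Subtype.ext
  show ((n : ℤ) • (⟨t, ht⟩ : ratSub N) : ratSub N).1 = 0
  rw [natCast_zsmul]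
  exact hnt

theorem card_le_pow_of_subset {J : Type*} [AddCommGroup J] {s : Set J} (hs : s.Finite) {r : ℕ}
    (hr : 2 ≤ r) (T : AddSubgroup J) (hT : ∀ t ∈ T, t ∈ s) : Nat.card T ≤ r ^ s.ncard := by
  have h1 : Nat.card T ≤ s.ncard := by
    have : (T : Set J) ⊆ s := hT
    calc Nat.card T = (T : Set J).ncard := (Nat.card_coe_set_eq _)
      _ ≤ s.ncard := Set.ncard_le_ncard this hs
  exact h1.trans (Nat.lt_pow_self hr).le

/-- **(FIN)** for `J₀(N)`. -/
theorem fin_main {N r : ℕ} [NeZero N] (hN : N.Prime) (hr : r.Prime) (hrN : r ≠ N)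
    (T : Finset ℕ) :
    ∃ c0 : ℕ, ∀ k : ℕ, c0 ≤ k → ∃ ε : AddMonoid.End (JZero N),
      (∀ c : JZero N, (∀ m : Nat.Primes, (m : ℕ) ∉ T → ¬ (m : ℕ) ∣ N →
        heckeOperatorBar N m c = (1 + (m : ℕ)) • c) → ε c = c) ∧
      (∀ S : AddSubgroup (JZero N),
        (∀ m : Nat.Primes, (m : ℕ) ∉ T → ¬ (m : ℕ) ∣ N → ∀ x ∈ S, heckeOperatorBar N m x ∈ S) →
          ∀ x ∈ S, ε x ∈ S) ∧
      ∀ y : JZero N, IsRat y → ∃ p ∈ ratSub N, ∃ t ∈ ratSub N,
        r ^ c0 • t = 0 ∧ ε y = t + r ^ (k - c0) • p := by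
  haveI : Fact r.Prime := ⟨hr⟩
  obtain ⟨Ar, hAr⟩ := Fermat.Agent.S54.exists_liesOverPrime hr
  obtain ⟨AN, hAN⟩ := Fermat.Agent.S54.exists_liesOverPrime hN
  set sa : Set (JZero N) := {t : JZero N | IsRat t ∧ ∃ n : ℕ, n ≠ 0 ∧ n • t = 0} with hsa
  have hsafin : sa.Finite := finite_rat_torsion N
  set sb : Set (JZero N) := {x : JZero N | r ^ 1 • x = 0} with hsb
  have hsbfin : sb.Finite := geo_fin N hr.pos 1
  set a := sa.ncard with ha
  set b := sb.ncard with hb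
  refine ⟨1 + a + b + a, fun k hk => ?_⟩
  haveI : NeZero (r ^ k) := ⟨pow_ne_zero k hr.ne_zero⟩
  obtain ⟨ε, S, hJ, heis, hst⟩ := exists_jacHyp (r := r) hN hrN Ar AN hAN k T
  refine ⟨ε, heis, hst, fun y hy => ?_⟩
  obtain ⟨z0, hz0⟩ := Fermat.Agent.S19.divisible_cover (r ^ k) (pow_pos hr.pos k)
    (modularFunctionFieldBar N) y
  have hz0' : ∀ σ : GQ, actJ N σ (r ^ k • z0) = r ^ k • z0 := fun σ => by
    rw [hz0]; exact hy σ
  obtain ⟨p, t, hp, ht, htc, hdec⟩ := hJ.decomp hN hrN hAr hAN (a := a) (b := b)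
    (fun T' hT' => card_le_pow_of_subset hsafin hr.two_le T' fun t ht =>
      ⟨fun σ => (hT' t ht).2 σ, r ^ k, pow_ne_zero k hr.ne_zero, (hT' t ht).1⟩)
    (fun T' hT' => card_le_pow_of_subset hsbfin hr.two_le T' fun t ht => by
      show r ^ 1 • t = 0
      rw [pow_one]; exact hT' t ht)
    hk hz0'
  rw [hz0] at hdec
  exact ⟨p, hp, t, ht, htc, hdec⟩

end Fermat.Agent.MAZ
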