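import Fermat.Agent.MAZ.Top
import Fermat.Agent.MAZ.Geo.Main

/-!
# MAZ / Geo : `FinMain` (the hypothesis of `MAZ/Top.lean`, `MAZ/Main.lean`) from `fin_main`
-/

set_option autoImplicit false

noncomputable section

namespace Fermat.Agent.MAZ

open ModularCurve AlgebraicCurve

/-- (FIN) in the shape consumed by `core_abs`. -/
theorem finMain_of_prime {N r : ℕ} [NeZero N] (hN : N.Prime) (hr : r.Prime) (hrN : r ≠ N)
    (T : Finset ℕ) : FinMain N r T := by
  obtain ⟨c0, h⟩ := fin_main hN hr hrN T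
  refine ⟨c0, fun k hk y hy => ?_⟩
  obtain ⟨ε, h1, h2, h3⟩ := h k hk
  obtain ⟨p, hp, t, ht, htc, he⟩ := h3 y hy
  exact ⟨ε, h2, h1, p, t, hp, ht, htc, he⟩

/-- the hypothesis `hfin` of `core_abs`, `core_zero`, `core_inf`, `s15_of_fin`. -/
theorem finMain_all {N : ℕ} [NeZero N] (hN : N.Prime) :
    ∀ r : ℕ, r.Prime → r ∣ N - 1 → FinMain N r {2, 3, r, N} := by
  intro r hr hrN
  refine finMain_of_prime hN hr ?_ _
  rintro rfl
  have h1 : r - 1 ≠ 0 := by have := hr.two_le; omega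
  have := Nat.le_of_dvd (Nat.pos_of_ne_zero h1) hrN
  omega

end Fermat.Agent.MAZ
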