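import Fermat.Agent.MAZ.Geo.Main
import Fermat.Agent.MAZ.Geo.Heq
import Fermat.Agent.MAZ.Abs.End
import Fermat.Agent.MAZ.Dict.CuspClass

/-!
# MAZ / Geo / (END) for `J₀(N)` : instantiation of the abstract endgame

`y`, `κ` rational points of `J₀(N)`, `κ` torsion of order prime to `N ℓ`.  If `y` reduces to `0` at `2` and at `3` and `y + κ` reduces to `0` at
`ℓ ≠ N` then `κ = 0`.

Proof: strong induction on the exponent `n` of `κ`; for a prime `r ∣ n`, `n = r^a m'`, the abstract `endgame` applied to `m' y`, `m' κ` (with the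
reduction at `q ∈ {2, 3}`, `q ≠ r`) and `fin_main` give `m' κ = 0`.
-/

set_option autoImplicit false

noncomputable section

namespace Fermat.Agent.MAZ

open ModularCurve AlgebraicCurve
open Fermat.Agent.FLAT (Qb GQ)
open Fermat.Agent.RED (aux)

theorem not_dvd_mul_aux_of_not_mem {N m q : ℕ} (hm : m.Prime) (hmN : ¬ m ∣ N) (h2 : m ≠ 2)
    (h3 : m ≠ 3) : ¬ m ∣ N * aux q := by
  intro hd
  rcases (Nat.Prime.dvd_mul hm).1 hd with h | h
  · exact hmN h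
  · rcases Fermat.Agent.RED.aux_eq q with e | e
    · rw [e, show (4 : ℕ) = 2 ^ 2 from rfl] at h
      exact h2 ((Nat.prime_dvd_prime_iff_eq hm Nat.prime_two).1 (hm.dvd_of_dvd_pow h))
    · rw [e, show (9 : ℕ) = 3 ^ 2 from rfl] at h
      exact h3 ((Nat.prime_dvd_prime_iff_eq hm Nat.prime_three).1 (hm.dvd_of_dvd_pow h))

/-- one prime `r` at a time. -/
theorem geo_endgame_prime {N : ℕ} [NeZero N] (hN : N.Prime) {r : ℕ} (hr : r.Prime) (hrN : r ≠ N)
    (y cr : JZero N) (hy : IsRat y) (hcr : IsRat cr) (a : ℕ) (ha : r ^ a • cr = 0)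
    {q : ℕ} (hq : q.Prime) (hqN : q ≠ N) (hqr : q ≠ r) (Aq : ValuationSubring Qb)
    (hAq : Aq.LiesOverPrime q) (h2 : redJ N q Aq y = 0)
    {ℓ : ℕ} (hℓ : ℓ.Prime) (hℓN : ℓ ≠ N) (hℓr : ℓ ≠ r) (A : ValuationSubring Qb)
    (hA : A.LiesOverPrime ℓ) (hl : redJ N ℓ A (y + cr) = 0) : cr = 0 := by
  have hqN' : ¬ q ∣ N := fun h => hqN ((Nat.prime_dvd_prime_iff_eq hq hN).1 h)
  have hℓN' : ¬ ℓ ∣ N := fun h => hℓN ((Nat.prime_dvd_prime_iff_eq hℓ hN).1 h)
  obtain ⟨c0, hc0⟩ := fin_main hN hr hrN ({2, 3, r} : Finset ℕ)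
  refine endgame (ratSub_fg N) hr (redJ N q Aq) (redJ N ℓ A) ?_ ?_ c0 y cr ⟨a, ha⟩ h2 hl ?_
  · rintro t ⟨n, hn⟩ h0
    exact redJ_eq_zero_of_torsion hq hqN' Aq hAq
      (fun hd => hqr ((Nat.prime_dvd_prime_iff_eq hq hr).1 (hq.dvd_of_dvd_pow hd))) hn h0
  · rintro t ⟨n, hn⟩ h0
    exact redJ_eq_zero_of_torsion hℓ hℓN' A hA
      (fun hd => hℓr ((Nat.prime_dvd_prime_iff_eq hℓ hr).1 (hℓ.dvd_of_dvd_pow hd))) hn h0
  · intro k hk
    obtain ⟨ε, h1, h2', h3⟩ := hc0 k hk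
    have hT : ∀ m : Nat.Primes, (m : ℕ) ∉ ({2, 3, r} : Finset ℕ) →
        (m : ℕ) ≠ 2 ∧ (m : ℕ) ≠ 3 ∧ (m : ℕ) ≠ r := by
      intro m hm
      simp only [Finset.mem_insert, Finset.mem_singleton, not_or] at hm
      exact hm
    refine ⟨ε, ?_, ?_, ?_, h3 y hy⟩
    · intro x hx
      exact h2' (redJ N q Aq).ker (fun m hm hmN x hx =>
        redJ_hecke hq hqN' Aq hAq m
          (not_dvd_mul_aux_of_not_mem m.2 hmN (hT m hm).1 (hT m hm).2.1) x hx) x hx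
    · intro x hx
      exact h2' (redJ N ℓ A).ker (fun m hm hmN x hx =>
        redJ_hecke hℓ hℓN' A hA m
          (not_dvd_mul_aux_of_not_mem m.2 hmN (hT m hm).1 (hT m hm).2.1) x hx) x hx
    · refine h1 cr fun m hm hmN => ?_
      exact Dict.hecke_of_rational_torsion N m.2 hmN
        (fun hd => (hT m hm).2.2 ((Nat.prime_dvd_prime_iff_eq m.2 hr).1 hd)) cr hcr a ha

/-- **(END)** for `J₀(N)`. -/
theorem geo_endgame {N : ℕ} [NeZero N] (hN : N.Prime) (hN2 : N ≠ 2) (hN3 : N ≠ 3)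
    (y κ : JZero N) (hy : IsRat y) (hκ : IsRat κ) {n : ℕ} (hn : n ≠ 0) (hnκ : n • κ = 0)
    (hNn : ¬ N ∣ n)
    (A2 : ValuationSubring Qb) (hA2 : A2.LiesOverPrime 2) (h2 : redJ N 2 A2 y = 0)
    (A3 : ValuationSubring Qb) (hA3 : A3.LiesOverPrime 3) (h3 : redJ N 3 A3 y = 0)
    {ℓ : ℕ} (hℓ : ℓ.Prime) (hℓN : ℓ ≠ N) (hℓn : ¬ ℓ ∣ n) (A : ValuationSubring Qb)
    (hA : A.LiesOverPrime ℓ) (hl : redJ N ℓ A (y + κ) = 0) : κ = 0 := by
  induction n using Nat.strong_induction_on with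
  | _ n ih =>
    by_cases h1 : n = 1
    · rw [h1, one_smul] at hnκ
      exact hnκ
    obtain ⟨r, hr, hrn⟩ := Nat.exists_prime_and_dvd h1
    obtain ⟨a, m', hm', rfl⟩ := Nat.exists_eq_pow_mul_and_not_dvd hn r hr.ne_one
    have ha : a ≠ 0 := by
      rintro rfl
      rw [pow_zero, one_mul] at hrn
      exact hm' hrn
    have hm0 : m' ≠ 0 := fun h => hn (by rw [h, mul_zero])
    have hlt : m' < r ^ a * m' := by
      have : 1 < r ^ a := Nat.one_lt_pow ha hr.one_lt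
      nlinarith [Nat.pos_of_ne_zero hm0]
    have hrN : r ≠ N := fun h => hNn (h ▸ hrn)
    have hℓr : ℓ ≠ r := fun h => hℓn (h ▸ hrn)
    have key : m' • κ = 0 := by
      have hcr : r ^ a • (m' • κ) = 0 := by rw [← mul_smul]; exact hnκ
      have hl' : redJ N ℓ A (m' • y + m' • κ) = 0 := by
        rw [← nsmul_add, map_nsmul, hl, smul_zero]
      by_cases hr2 : r = 2
      · exact geo_endgame_prime hN hr hrN (m' • y) (m' • κ) (hy.nsmul m') (hκ.nsmul m') a hcr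
          Nat.prime_three (Ne.symm hN3) (by omega) A3 hA3 (by rw [map_nsmul, h3, smul_zero])
          hℓ hℓN hℓr A hA hl'
      · exact geo_endgame_prime hN hr hrN (m' • y) (m' • κ) (hy.nsmul m') (hκ.nsmul m') a hcr
          Nat.prime_two (Ne.symm hN2) (Ne.symm hr2) A2 hA2 (by rw [map_nsmul, h2, smul_zero])
          hℓ hℓN hℓr A hA hl'
    exact ih m' hlt hm0 key (fun h => hNn (h.mul_left _)) (fun h => hℓn (h.mul_left _))

end Fermat.Agent.MAZ
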