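import Fermat.Agent.MAZ.Geo.Unr
import Fermat.Agent.MAZ.Abs.Leaves
import Fermat.Agent.S19
import Fermat.Agent.FLAT.Desc.Teich

/-!
# MAZ / Geo / [EPS] : the Eisenstein projector `ε` at level `r ^ k`, and `(U)` on `V = ε J[r^k]`

`etaEnd N m = T_m - (1 + m)`.  `ε := fitProj [etaEnd N m : m ∈ S_k] M` (`MAZ/Abs/Leaves.lean`).

RECIPE.  `n = r ^ k`.
0. `geo_fin` : `S19.finite_tor` (`Submodule.torsionBy ℤ _ (r^k : ℤ)` versus `{x | r ^ k • x = 0}`).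
1. `L₀` : a finite extension of `ℚ` such that `σ|L₀ = 1` implies `σ = 1` on `J[n]` and on `μ_r` (`jac_exists_field geo_smooth geo_fin`, sup with
   `IntermediateField.adjoin ℚ {ζ | ζ ^ r = 1}`).
2. The set of restrictions `σ|L₀` is finite (`L₀ →ₐ[ℚ] Qb` is a `Fintype`).  For each restriction `φ` pick `σ_φ` and apply
   `GAL.genCheb L₀ _ σ_φ (T ∪ primeFactors (N * r))` : a prime `ℓ_φ ∉ T`, `ℓ_φ ∤ N r`, `A | ℓ_φ`, a Frobenius `τ_φ`, `c_φ` with `σ_φ = τ_φ ^ c_φ` on `L₀`.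
   `l := [etaEnd N ℓ_φ]_φ`.  The members of `l` commute (`GAL.HeckeComm.heckeOperatorsCommuteBar`).
3. `exists_fitting geo_fin l` gives `M`; `ε := fitProj l M`.  `comm` : `fitProj_comm` + `GAL.galHecke`.  `eis` : `fitProj_apply_of_forall_eq_zero`.
   `stable` : induction on the list (`1 - η ^ M` preserves every subgroup stable under `T_m`).
4. `(U)` : `σ` trivial on `μ_r`, `φ := σ|L₀`; on `J[n]` and `μ_r` : `σ = τ ^ c` (`τ = τ_φ` ...).  `GAL.es_of_S37 N r S37.result` (`ESQuad`) :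
   `τ² v - T_ℓ τ v + ℓ v = 0` on `J[n]`, i.e. `(F - 1)(F - ℓ) = η F` on `V` with `F = τ|V`, `η = etaEnd|V`, `η ^ M = 0` on `V`.
   `τ ζ = ζ ^ ℓ` on `μ_r` (Frobenius at `ℓ ≠ r` : `FLAT.valuation_frobenius_sub_pow_lt_one` + `FLAT.eq_of_valuation_sub_lt_one`), so `ℓ ^ c ≡ 1 mod r`.
   `exists_pow_eq_one_of_es` concludes.
-/

set_option autoImplicit false

noncomputable section

namespace Fermat.Agent.MAZ

open ModularCurve AlgebraicCurve
open Fermat.Agent.FLAT (Qb GQ)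

/-- `T_m` as an additive endomorphism. -/
def heckeEnd (N : ℕ) [NeZero N] (m : Nat.Primes) : AddMonoid.End (JZero N) :=
  (heckeOperatorBar N m).toAddMonoidHom

/-- `η_m = T_m - (1 + m)`. -/
def etaEnd (N : ℕ) [NeZero N] (m : Nat.Primes) : AddMonoid.End (JZero N) :=
  heckeEnd N m - ((1 + (m : ℕ) : ℕ) : AddMonoid.End (JZero N))

theorem etaEnd_apply (N : ℕ) [NeZero N] (m : Nat.Primes) (x : JZero N) :
    etaEnd N m x = heckeOperatorBar N m x - (1 + (m : ℕ)) • x := by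
  unfold etaEnd
  rw [fit_sub_apply, AddMonoid.End.natCast_apply]
  rfl

/-- `J₀(N)[r^k]` is finite. -/
theorem geo_fin (N : ℕ) [NeZero N] {r : ℕ} (hr : 0 < r) (k : ℕ) :
    {x : JZero N | r ^ k • x = 0}.Finite := by
  have h := Fermat.Agent.S19.finite_tor N r k hr
  have h2 : {x : JZero N | r ^ k • x = 0} =
      (Submodule.torsionBy ℤ (JZero N) ((r : ℤ) ^ k) : Set (JZero N)) := by
    ext x
    simp only [Set.mem_ofPred_eq, SetLike.mem_coe, Submodule.mem_torsionBy_iff]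
    rw [← Nat.cast_pow, natCast_zsmul]
  rw [h2]
  exact Set.toFinite _

theorem etaEnd_commute (N : ℕ) [NeZero N] (m m' : Nat.Primes) :
    Commute (etaEnd N m) (etaEnd N m') := by
  have h0 := Fermat.Agent.GAL.HeckeComm.heckeOperatorsCommuteBar N m m'
  ext x
  have h : heckeOperatorBar N m (heckeOperatorBar N m' x) =
      heckeOperatorBar N m' (heckeOperatorBar N m x) := LinearMap.congr_fun h0 x
  change etaEnd N m (etaEnd N m' x) = etaEnd N m' (etaEnd N m x)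
  simp only [etaEnd_apply, map_sub, map_nsmul, h]
  generalize (1 + (m : ℕ)) = a
  generalize (1 + (m' : ℕ)) = b
  rw [nsmul_sub, nsmul_sub, ← mul_nsmul', ← mul_nsmul', mul_comm a b]
  abel

theorem actJ_commute_etaEnd (N : ℕ) [NeZero N] (σ : GQ) (m : Nat.Primes) :
    Commute (actJ N σ) (etaEnd N m) := by
  ext x
  change actJ N σ (etaEnd N m x) = etaEnd N m (actJ N σ x)
  rw [etaEnd_apply, etaEnd_apply, actJ_apply, actJ_apply, smul_sub,
    Fermat.Agent.GAL.galHecke N m σ x, smul_nsmul_comm]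

/-- `fitProj` preserves every subgroup stable under the members of the list. -/
theorem fitProj_mem {J : Type} [AddCommGroup J] (l : List (AddMonoid.End J)) (M : ℕ)
    (S : AddSubgroup J) (hS : ∀ η ∈ l, ∀ x ∈ S, η x ∈ S) : ∀ x ∈ S, fitProj l M x ∈ S := by
  induction l with
  | nil => intro x hx; simpa [fitProj] using hx
  | cons η l ih =>
    intro x hx
    have h1 := ih (fun ξ hξ => hS ξ (List.mem_cons_of_mem _ hξ)) x hx
    have h2 : ∀ (j : ℕ), ∀ y ∈ S, (η ^ j) y ∈ S := by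
      intro j
      induction j with
      | zero => intro y hy; simpa using hy
      | succ j ihj =>
        intro y hy
        rw [pow_succ, fit_mul_apply]
        exact ihj _ (hS η List.mem_cons_self y hy)
    rw [fitProj_cons, fit_mul_apply, fit_sub_apply, AddMonoid.End.one_apply]
    exact S.sub_mem h1 (h2 M _ h1)

/-- a Frobenius at `ℓ ≠ r` raises the `r`-th roots of unity to the power `ℓ`. -/
theorem frob_apply_root {r ℓ : ℕ} (hr : r.Prime) (hℓ : ℓ.Prime) (hne : ℓ ≠ r)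
    {A : ValuationSubring Qb} (hA : A.LiesOverPrime ℓ) {τ : GQ} (hτ : A.IsFrobeniusAt τ ℓ)
    {ζ : Qb} (hζ : ζ ^ r = 1) : τ ζ = ζ ^ ℓ := by
  haveI : Fact ℓ.Prime := ⟨hℓ⟩
  have hcop : Nat.Coprime ℓ r := (Nat.coprime_primes hℓ hr).2 hne
  refine Fermat.Agent.FLAT.eq_of_valuation_sub_lt_one hA hcop (by rw [← map_pow, hζ, map_one])
    (by rw [← pow_mul, mul_comm, pow_mul, hζ, one_pow]) ?_
  exact Fermat.Agent.FLAT.valuation_frobenius_sub_pow_lt_one hτ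
    ((A.valuation_le_one_iff _).mp
      (Fermat.Agent.Bridge.valuation_eq_one_of_pow_eq_one hr.ne_zero hζ).le)

theorem frob_pow_apply_root {r ℓ : ℕ} (hr : r.Prime) (hℓ : ℓ.Prime) (hne : ℓ ≠ r)
    {A : ValuationSubring Qb} (hA : A.LiesOverPrime ℓ) {τ : GQ} (hτ : A.IsFrobeniusAt τ ℓ)
    (c : ℕ) : ∀ {ζ : Qb}, ζ ^ r = 1 → (τ ^ c) ζ = ζ ^ (ℓ ^ c) := by
  induction c with
  | zero => intro ζ _; simp
  | succ c ih =>
    intro ζ hζ
    rw [pow_succ, AlgEquiv.mul_apply, frob_apply_root hr hℓ hne hA hτ hζ,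
      ih (by rw [← pow_mul, mul_comm, pow_mul, hζ, one_pow]), ← pow_mul, pow_succ, mul_comm]

/-- `ℓ ^ c ≡ 1 mod r` if `Frob_ℓ ^ c` is trivial on `μ_r`. -/
theorem pow_mod_eq_one_of_frob {r ℓ : ℕ} (hr : r.Prime) (hℓ : ℓ.Prime) (hne : ℓ ≠ r)
    {A : ValuationSubring Qb} (hA : A.LiesOverPrime ℓ) {τ : GQ} (hτ : A.IsFrobeniusAt τ ℓ)
    (c : ℕ) (h : ∀ ζ : Qb, ζ ^ r = 1 → (τ ^ c) ζ = ζ) : ℓ ^ c % r = 1 := by
  haveI : NeZero r := ⟨hr.ne_zero⟩
  haveI : NeZero ((r : ℕ) : ℚ) := ⟨by exact_mod_cast hr.ne_zero⟩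
  obtain ⟨ζ, hζ⟩ := HasEnoughRootsOfUnity.exists_primitiveRoot Qb r
  have h1 := h ζ hζ.pow_eq_one
  rw [frob_pow_apply_root hr hℓ hne hA hτ c hζ.pow_eq_one] at h1
  have hpos : 0 < ℓ ^ c := pow_pos hℓ.pos c
  obtain ⟨d, hd⟩ : ∃ d, ℓ ^ c = d + 1 := ⟨ℓ ^ c - 1, by omega⟩
  rw [hd, pow_succ] at h1
  have h2 : ζ ^ d = 1 := mul_right_cancel₀ (hζ.ne_zero hr.ne_zero) (by rw [h1, one_mul])
  obtain ⟨e, he⟩ := hζ.dvd_of_pow_eq_one d h2
  rw [hd, he, Nat.mul_add_mod]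
  exact Nat.mod_eq_of_lt hr.one_lt

/-- a number field trivialising `J[r^k]` and containing `μ_r`. -/
theorem exists_field_eps (N : ℕ) [NeZero N] {r : ℕ} (hr : r.Prime) (k : ℕ) :
    ∃ L0 : IntermediateField ℚ Qb, FiniteDimensional ℚ L0 ∧
      (∀ σ : GQ, (∀ y ∈ L0, σ y = y) → ∀ z : JZero N, r ^ k • z = 0 → actJ N σ z = z) ∧
      ∀ ζ : Qb, ζ ^ r = 1 → ζ ∈ L0 := by
  obtain ⟨L1, hL1fd, hL1⟩ := jac_exists_field (actJ := actJ N) (geo_smooth N)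
    (geo_fin N hr.pos k)
  have hfinμ : {ζ : Qb | ζ ^ r = 1}.Finite := by
    have h := (Polynomial.nthRootsFinset r (1 : Qb)).finite_toSet
    refine h.subset fun ζ hζ => ?_
    exact (Polynomial.mem_nthRootsFinset hr.pos 1).2 hζ
  have : Finite {ζ : Qb | ζ ^ r = 1} := hfinμ
  have hL2fd : FiniteDimensional ℚ (IntermediateField.adjoin ℚ {ζ : Qb | ζ ^ r = 1}) :=
    IntermediateField.finiteDimensional_adjoin fun x _ => Algebra.IsIntegral.isIntegral x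
  refine ⟨L1 ⊔ IntermediateField.adjoin ℚ {ζ : Qb | ζ ^ r = 1},
    IntermediateField.finiteDimensional_sup _ _, fun σ hσ z hz => ?_, fun ζ hζ => ?_⟩
  · exact hL1 σ (fun y hy => hσ y ((le_sup_left : L1 ≤ _) hy)) z hz
  · exact (le_sup_right : IntermediateField.adjoin ℚ {ζ : Qb | ζ ^ r = 1} ≤ _)
      (IntermediateField.subset_adjoin ℚ _ hζ)

/-- Eichler-Shimura on `V = ε J[r^k]` : `Frob ^ c` has `r`-power order on `V` when `ℓ ^ c ≡ 1 mod r`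
(abstract form). -/
theorem eps_unip_abs {J : Type} [AddCommGroup J] {actJ : GQ →* AddMonoid.End J} {r : ℕ}
    (hr : r.Prime) (k : ℕ) (ε : AddMonoid.End J)
    (hcommσ : ∀ (σ : GQ) (x : J), ε (actJ σ x) = actJ σ (ε x))
    (η₀ : AddMonoid.End J) (ℓ : ℕ)
    (hεη : ∀ x : J, ε (η₀ x) = η₀ (ε x)) {M : ℕ}
    (hkill : ∀ x : J, r ^ k • x = 0 → ε x = x → (η₀ ^ M) x = 0)
    (τ : GQ) (hτη : ∀ x : J, actJ τ (η₀ x) = η₀ (actJ τ x))
    (hES : ∀ x : J, r ^ k • x = 0 →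
      actJ τ (actJ τ x) - (η₀ (actJ τ x) + (1 + ℓ) • actJ τ x) + ℓ • x = 0)
    {c : ℕ} (hc : ℓ ^ c % r = 1) :
    ∃ j : ℕ, ∀ v ∈ epsTors (r ^ k) ε, actJ ((τ ^ c) ^ r ^ j) v = v := by
  have hηV : ∀ v : epsTors (r ^ k) ε, η₀ (v : J) ∈ epsTors (r ^ k) ε := fun v =>
    ⟨fit_tors _ v.2.1, by rw [hεη, v.2.2]⟩
  obtain ⟨F, hFdef, hF_coe⟩ : ∃ F : AddMonoid.End (epsTors (r ^ k) ε),
      F = epsAct hcommσ τ ∧ ∀ v : epsTors (r ^ k) ε,
        ((F v : epsTors (r ^ k) ε) : J) = actJ τ (v : J) :=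
    ⟨_, rfl, fun v => rfl⟩
  obtain ⟨η, hη_coe⟩ : ∃ η : AddMonoid.End (epsTors (r ^ k) ε), ∀ v : epsTors (r ^ k) ε,
      ((η v : epsTors (r ^ k) ε) : J) = η₀ (v : J) :=
    ⟨(η₀.comp (epsTors (r ^ k) ε).subtype).codRestrict (epsTors (r ^ k) ε) hηV,
      fun v => rfl⟩
  have hηpow : ∀ (j : ℕ) (v : epsTors (r ^ k) ε),
      (((η ^ j) v : epsTors (r ^ k) ε) : J) = (η₀ ^ j) (v : J) := by
    intro j
    induction j with
    | zero => intro v; simp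
    | succ j ih =>
      intro v
      rw [pow_succ, pow_succ, fit_mul_apply, fit_mul_apply, ih, hη_coe]
  have hηM : η ^ M = 0 := by
    ext v
    rw [hηpow, hkill _ v.2.1 v.2.2]
    rfl
  have hFη : Commute F η := by
    ext v
    rw [fit_mul_apply, fit_mul_apply, hF_coe, hη_coe, hη_coe, hF_coe, hτη]
  have hes : (F - 1) * (F - ((ℓ : ℕ) : AddMonoid.End (epsTors (r ^ k) ε))) = η * F := by
    ext v
    have h1 := hES (v : J) v.2.1
    rw [fit_mul_apply, fit_mul_apply, fit_sub_apply, fit_sub_apply, AddMonoid.End.one_apply,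
      AddMonoid.End.natCast_apply, map_sub, map_nsmul]
    simp only [AddSubgroup.coe_sub, AddSubgroup.coe_nsmul, hF_coe, hη_coe]
    have h2 : actJ τ (actJ τ (v : J)) =
        (η₀ (actJ τ (v : J)) + (1 + ℓ) • actJ τ (v : J)) - ℓ • (v : J) := by
      rw [eq_sub_iff_add_eq, ← sub_eq_zero, ← h1]
      abel
    rw [h2, add_nsmul, one_nsmul]
    abel
  obtain ⟨j, hj⟩ := exists_pow_eq_one_of_es hr (fun v => nsmul_epsTors v) F η hFη hηM hes hc
  refine ⟨j, fun v hv => ?_⟩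
  have h3 : epsAct (n := r ^ k) hcommσ ((τ ^ c) ^ r ^ j) = 1 := by
    rw [map_pow, map_pow, ← hFdef]
    exact hj
  have h4 := DFunLike.congr_fun h3 ⟨v, hv⟩
  exact congrArg Subtype.val h4

theorem eps_pow_congr {J : Type} [AddCommGroup J] {actJ : GQ →* AddMonoid.End J} {n : ℕ}
    {ε : AddMonoid.End J} (hcommσ : ∀ (σ : GQ) (x : J), ε (actJ σ x) = actJ σ (ε x))
    {σ g : GQ} (h3 : ∀ z : J, n • z = 0 → actJ σ z = actJ g z) (j : ℕ) :
    ∀ v ∈ epsTors n ε, actJ (σ ^ j) v = actJ (g ^ j) v := by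
  intro v hv
  have h5 : epsAct (n := n) hcommσ σ = epsAct (n := n) hcommσ g := by
    ext w
    exact h3 w w.2.1
  have h6 : epsAct (n := n) hcommσ (σ ^ j) = epsAct (n := n) hcommσ (g ^ j) := by
    rw [map_pow, map_pow, h5]
  exact congrArg Subtype.val (DFunLike.congr_fun h6 ⟨v, hv⟩)

/-- Eichler-Shimura on `V = ε J[r^k]` : `Frob ^ c` has `r`-power order on `V` when `ℓ ^ c ≡ 1 mod r`. -/
theorem eps_unip {N r : ℕ} [NeZero N] (hr : r.Prime) (k : ℕ) (ε : AddMonoid.End (JZero N))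
    (hcommσ : ∀ (σ : GQ) (x : JZero N), ε (actJ N σ x) = actJ N σ (ε x))
    (m : Nat.Primes) (hmN : ¬ (m : ℕ) ∣ N * r)
    (hεη : ∀ x : JZero N, ε (etaEnd N m x) = etaEnd N m (ε x)) {M : ℕ}
    (hkill : ∀ x : JZero N, r ^ k • x = 0 → ε x = x → (etaEnd N m ^ M) x = 0)
    {A : ValuationSubring Qb} (hA : A.LiesOverPrime (m : ℕ)) {τ : GQ}
    (hτ : A.IsFrobeniusAt τ (m : ℕ)) {c : ℕ} (hc : (m : ℕ) ^ c % r = 1) :
    ∃ j : ℕ, ∀ v ∈ epsTors (r ^ k) ε, actJ N ((τ ^ c) ^ r ^ j) v = v := by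
  have hES := (Fermat.Agent.GAL.es_of_S37 N r (Fermat.Agent.S37.result N r)).2
  refine eps_unip_abs hr k ε hcommσ (etaEnd N m) (m : ℕ) hεη hkill τ
    (fun x => DFunLike.congr_fun (actJ_commute_etaEnd N τ m).eq x) (fun x hx => ?_) hc
  have h1 := hES (m : ℕ) m.2 hmN A hA τ hτ x ⟨k, hx⟩
  rw [etaEnd_apply, sub_add_cancel, actJ_apply, actJ_apply]
  exact h1

/-- **[EPS]** -/
theorem exists_eps {N r : ℕ} [NeZero N] (hr : r.Prime) (k : ℕ) (T : Finset ℕ) :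
    ∃ ε : AddMonoid.End (JZero N),
      (∀ (σ : GQ) (x : JZero N), ε (actJ N σ x) = actJ N σ (ε x)) ∧
      (∀ x : JZero N, r ^ k • x = 0 → ε (ε x) = ε x) ∧
      (∀ c : JZero N, (∀ m : Nat.Primes, (m : ℕ) ∉ T → ¬ (m : ℕ) ∣ N →
        heckeOperatorBar N m c = (1 + (m : ℕ)) • c) → ε c = c) ∧
      (∀ S : AddSubgroup (JZero N),
        (∀ m : Nat.Primes, (m : ℕ) ∉ T → ¬ (m : ℕ) ∣ N → ∀ x ∈ S, heckeOperatorBar N m x ∈ S) →
          ∀ x ∈ S, ε x ∈ S) ∧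
      (∀ σ : GQ, (∀ ζ : Qb, ζ ^ r = 1 → σ ζ = ζ) →
        ∃ m : ℕ, ∀ v ∈ epsTors (r ^ k) ε, actJ N (σ ^ r ^ m) v = v) := by
  classical
  obtain ⟨L0, hL0fd, hL0J, hL0μ⟩ := exists_field_eps N hr k
  choose ℓ A τ c hℓ hℓT hA hτ hστ using fun σ : GQ =>
    Fermat.Agent.GAL.genCheb L0 hL0fd σ (T ∪ (N * r).primeFactors)
  let res : GQ → (L0 →ₐ[ℚ] Qb) := fun σ => (σ : Qb →ₐ[ℚ] Qb).comp L0.val
  let s : (L0 →ₐ[ℚ] Qb) → GQ := Function.invFun res
  have hs : ∀ σ, res (s (res σ)) = res σ := fun σ => Function.invFun_eq ⟨σ, rfl⟩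
  let P : (L0 →ₐ[ℚ] Qb) → Nat.Primes := fun φ => ⟨ℓ (s φ), hℓ (s φ)⟩
  let l : List (AddMonoid.End (JZero N)) :=
    (Finset.univ : Finset (L0 →ₐ[ℚ] Qb)).toList.map (fun φ => etaEnd N (P φ))
  have hl : ∀ η ∈ l, ∃ φ, η = etaEnd N (P φ) := by
    intro η hη
    obtain ⟨φ, -, rfl⟩ := List.mem_map.1 hη
    exact ⟨φ, rfl⟩
  have hl' : ∀ φ, etaEnd N (P φ) ∈ l := fun φ =>
    List.mem_map.2 ⟨φ, Finset.mem_toList.2 (Finset.mem_univ φ), rfl⟩
  have hcomm : ∀ a ∈ l, ∀ b ∈ l, Commute a b := by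
    intro a ha b hb
    obtain ⟨φ, rfl⟩ := hl a ha
    obtain ⟨ψ, rfl⟩ := hl b hb
    exact etaEnd_commute N _ _
  obtain ⟨M, hM, hidem, hkill⟩ := exists_fitting (geo_fin N hr.pos k) l hcomm
  have hNr : N * r ≠ 0 := Nat.mul_ne_zero (NeZero.ne N) hr.ne_zero
  have hPN : ∀ φ, ¬ ((P φ : ℕ) ∣ N * r) := by
    intro φ hd
    exact hℓT (s φ) (Finset.mem_union_right _ (Nat.mem_primeFactors.2 ⟨hℓ (s φ), hd, hNr⟩))
  have hPT : ∀ φ, (P φ : ℕ) ∉ T := fun φ h => hℓT (s φ) (Finset.mem_union_left _ h)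
  have hcommσ : ∀ (σ : GQ) (x : JZero N),
      fitProj l M (actJ N σ x) = actJ N σ (fitProj l M x) := by
    intro σ x
    refine fitProj_comm l M (actJ N σ) (fun η hη => ?_) x
    obtain ⟨φ, rfl⟩ := hl η hη
    exact actJ_commute_etaEnd N σ _
  refine ⟨fitProj l M, hcommσ, hidem, ?_, ?_, ?_⟩
  · intro e he
    refine fitProj_apply_of_forall_eq_zero l hM fun η hη => ?_
    obtain ⟨φ, rfl⟩ := hl η hη
    rw [etaEnd_apply, he (P φ) (hPT φ) (fun h => hPN φ (Dvd.dvd.mul_right h r)), sub_self]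
  · intro S hS
    refine fitProj_mem l M S fun η hη x hx => ?_
    obtain ⟨φ, rfl⟩ := hl η hη
    rw [etaEnd_apply]
    exact S.sub_mem (hS (P φ) (hPT φ) (fun h => hPN φ (Dvd.dvd.mul_right h r)) x hx)
      (S.nsmul_mem hx _)
  · intro σ hσ
    have h1 : ∀ x ∈ L0, σ x = s (res σ) x := fun x hx =>
      (DFunLike.congr_fun (hs σ) ⟨x, hx⟩).symm
    obtain ⟨σ', hσ'⟩ : ∃ σ', σ' = s (res σ) := ⟨_, rfl⟩
    have h2 : ∀ x ∈ L0, σ x = (τ σ' ^ c σ') x := fun x hx => by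
      rw [h1 x hx, ← hσ']
      exact hστ σ' x hx
    have h3 : ∀ z : JZero N, r ^ k • z = 0 → actJ N σ z = actJ N (τ σ' ^ c σ') z := by
      intro z hz
      have h := hL0J ((τ σ' ^ c σ')⁻¹ * σ) (fun y hy => by
        rw [AlgEquiv.mul_apply, h2 y hy]
        exact AlgEquiv.symm_apply_apply _ _) z hz
      rw [jac_act_mul] at h
      have h' := congrArg (actJ N (τ σ' ^ c σ')) h
      rwa [← jac_act_mul, mul_inv_cancel, jac_act_one] at h'
    have hne : ℓ σ' ≠ r := by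
      intro h
      apply hPN (res σ)
      change ℓ (s (res σ)) ∣ N * r
      rw [← hσ', h]
      exact Dvd.intro_left N rfl
    have h4 : ℓ σ' ^ c σ' % r = 1 :=
      pow_mod_eq_one_of_frob hr (hℓ σ') hne (hA σ') (hτ σ') _ fun ζ hζ => by
        rw [← h2 ζ (hL0μ ζ hζ), hσ ζ hζ]
    have hP : P (res σ) = ⟨ℓ σ', hℓ σ'⟩ := by
      apply Subtype.ext
      change ℓ (s (res σ)) = ℓ σ'
      rw [hσ']
    obtain ⟨j, hj⟩ := eps_unip hr k (fitProj l M) hcommσ ⟨ℓ σ', hℓ σ'⟩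
      (by rw [← hP]; exact hPN _)
      (fun x => fitProj_comm l M _ (fun η hη => by
        obtain ⟨φ, rfl⟩ := hl η hη
        exact etaEnd_commute N _ _) x)
      (M := M) (fun x hx hx' => hkill x hx hx' _ (by rw [← hP]; exact hl' _))
      (hA σ') (hτ σ') h4
    refine ⟨j, fun v hv => ?_⟩
    exact (eps_pow_congr hcommσ h3 _ v hv).trans (hj v hv)

end Fermat.Agent.MAZ
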