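import Fermat.Agent.FFG.Core

/-!
# MAZ / Geo / [HEQ-A] : a bounded homomorphism on the kernel of reduction vanishes   (abstract, `FFG.Good`)

`G : FFG.Good R r`.  `𝒟₀ := {D ∈ Div⁰ F | r_* D = 0}`.

* `exists_rep_mapDomain_eq_zero` : every class in the kernel of reduction is represented by an element of `𝒟₀` with at most `2 g` points.
  PROOF.  Fix a chart `χ` adapted to `0` (`FFG.exists_chart G 0 _ ∅ _`) and `P⁰` with `r (P⁰ i) = χ.pt i`, `∑ P⁰ - χ.a ∼ 0` (`Chart.exists_pts`).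
  If `r_* D` is principal then `χ` is adapted to `D` (`Chart.Adapted D` is `IsPrincipal ((D + χ.a).mapDomain r - sumP χ.pt)`, `mapDomain_add`), so
  `Chart.exists_pts` gives `P` with `r (P i) = χ.pt i`, `∑ P - χ.a ∼ D`.  `D' := sumP P - sumP P⁰`; `r_* D' = 0` (`Flip.mapDomain_sumP`).
* `eq_zero_of_bounded` : `Φ : Div F →+ Div Fb` bounded on places, killing `𝒟₀ ∩ Prin`.  Then `Φ` kills `𝒟₀`.
  PROOF.  Let `D ∈ 𝒟₀`, `Q` a place, `n ≥ 1`.  `n • D ∈ 𝒟₀`; by the first part `n • D ∼ D_n = sumP P - sumP P⁰ ∈ 𝒟₀`; `n • D - D_n ∈ 𝒟₀ ∩ Prin`, so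
  `n * Φ D Q = Φ D_n Q`, and `|Φ D_n Q| ≤ 2 g C`.  Hence `Φ D Q = 0` (take `n > 2 g C`).
-/

set_option autoImplicit false
set_option linter.unusedSectionVars false

open AlgebraicCurve

namespace Fermat.Agent.MAZ

open Fermat.Agent.RED Fermat.Agent.S24 Fermat.Agent.FFG

noncomputable section

variable {K F k Fb : Type*} [Field K] [Field F] [Algebra K F] [Field k] [Field Fb] [Algebra k Fb]
variable [IsAlgClosed K] [IsAlgClosed k]
variable {R : RedData K F k Fb} {r : Place K F → Place k Fb}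

/-- **[HEQ-A1]** -/
theorem exists_rep_mapDomain_eq_zero (G : Good R r) :
    ∃ P₀ : Fin (gN K F) → Place K F, ∀ D : Divisor K F, Divisor.degree D = 0 →
      Divisor.IsPrincipal (D.mapDomain r) →
      ∃ P : Fin (gN K F) → Place K F, (∀ i, r (P i) = r (P₀ i)) ∧
        Divisor.IsPrincipal (D - (sumP P - sumP P₀)) := by
  obtain ⟨χ, hχ, -, -⟩ := exists_chart G 0 (map_zero _) ∅ Set.finite_empty
  obtain ⟨P₀, hP₀, hP₀'⟩ := χ.exists_pts G (map_zero _) hχ
  refine ⟨P₀, fun D hD hDr => ?_⟩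
  have had : χ.Adapted D := by
    unfold Chart.Adapted at hχ ⊢
    rw [zero_add] at hχ
    rw [Finsupp.mapDomain_add]
    have := ChartAux.isPrincipal_add hDr hχ
    rwa [← add_sub_assoc] at this
  obtain ⟨P, hP, hP'⟩ := χ.exists_pts G hD had
  refine ⟨P, fun i => by rw [hP, hP₀], ?_⟩
  have := ChartAux.isPrincipal_sub hP₀' hP'
  have e : sumP P₀ - χ.a - 0 - (sumP P - χ.a - D) = D - (sumP P - sumP P₀) := by abel
  rwa [e] at this

theorem abs_map_sumP_apply_le (Φ : Divisor K F →+ Divisor k Fb) (C : ℤ)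
    (hC : ∀ (P : Place K F) (Q : Place k Fb), |Φ (Finsupp.single P 1) Q| ≤ C) {n : ℕ}
    (P : Fin n → Place K F) (Q : Place k Fb) : |Φ (sumP P) Q| ≤ n * C := by
  unfold sumP
  rw [map_sum, Finsupp.finsetSum_apply]
  refine (Finset.abs_sum_le_sum_abs _ _).trans ?_
  refine (Finset.sum_le_sum fun i _ => hC (P i) Q).trans ?_
  rw [Finset.sum_const, Finset.card_univ, Fintype.card_fin, nsmul_eq_mul]

/-- **[HEQ-A2]** -/
theorem eq_zero_of_bounded (G : Good R r) (Φ : Divisor K F →+ Divisor k Fb) (C : ℤ)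
    (hC : ∀ (P : Place K F) (Q : Place k Fb), |Φ (Finsupp.single P 1) Q| ≤ C)
    (hprin : ∀ D : Divisor K F, Divisor.IsPrincipal D → D.mapDomain r = 0 → Φ D = 0)
    {D : Divisor K F} (hdeg : Divisor.degree D = 0) (hD : D.mapDomain r = 0) : Φ D = 0 := by
  obtain ⟨P₀, hP₀⟩ := exists_rep_mapDomain_eq_zero G
  have hmap : ∀ n : ℕ, (n • D).mapDomain r = 0 := by
    intro n
    rw [← Finsupp.mapDomain.addMonoidHom_apply r (n • D), map_nsmul,
      Finsupp.mapDomain.addMonoidHom_apply, hD, smul_zero]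
  have key : ∀ (n : ℕ) (Q : Place k Fb), |(n : ℤ) * Φ D Q| ≤ 2 * (gN K F * C) := by
    intro n Q
    obtain ⟨P, hP, hPp⟩ := hP₀ (n • D) (by rw [map_nsmul, hdeg, smul_zero])
      (by rw [hmap]; exact Divisor.principal.zero_mem)
    have h0 : (n • D - (sumP P - sumP P₀)).mapDomain r = 0 := by
      rw [Flip.mapDomain_sub', Flip.mapDomain_sub', hmap, Flip.mapDomain_sumP,
        Flip.mapDomain_sumP, show (fun i => r (P i)) = fun i => r (P₀ i) from funext hP, sub_self,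
        sub_zero]
    have h1 := hprin _ hPp h0
    rw [map_sub, map_sub, map_nsmul, sub_eq_zero] at h1
    have h2 : (n : ℤ) * Φ D Q = Φ (sumP P) Q - Φ (sumP P₀) Q := by
      rw [← Finsupp.sub_apply, ← h1, Finsupp.smul_apply, nsmul_eq_mul]
    rw [h2]
    have h3 := abs_map_sumP_apply_le Φ C hC P Q
    have h4 := abs_map_sumP_apply_le Φ C hC P₀ Q
    have h5 := abs_sub (Φ (sumP P) Q) (Φ (sumP P₀) Q)
    linarith
  ext Q
  rw [Finsupp.zero_apply]
  by_contra hne
  have h1 : 1 ≤ |Φ D Q| := Int.one_le_abs hne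
  have h2 := key ((2 * (gN K F * C)).toNat + 1) Q
  rw [abs_mul, Nat.abs_cast] at h2
  have h3 : 2 * (gN K F * C) ≤ ((2 * (gN K F * C)).toNat : ℤ) := Int.self_le_toNat _
  push_cast at h2
  nlinarith

end

end Fermat.Agent.MAZ
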