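import Fermat.Agent.FFG.Order
import Fermat.Agent.FLAT.Defs

/-!
# MAZ / Geo / [HOPF-B1] : from the `FFG` shape of an order to `FLAT.IsHopfOrderA`
-/

set_option autoImplicit false

noncomputable section

namespace Fermat.Agent.MAZ

open Fermat.Agent.FLAT

theorem genOrd_eq_adjoin_toSubring {A : ValuationSubring Qb} {X : Type} (𝒳 : Set (X → Qb)) :
    FFG.genOrd A 𝒳 = (Algebra.adjoin A 𝒳).toSubring := by
  rw [Algebra.adjoin_eq_ring_closure, FFG.genOrd]
  congr 2
  ext ψ
  constructor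
  · rintro ⟨a, ha, rfl⟩
    exact ⟨⟨a, ha⟩, rfl⟩
  · rintro ⟨a, rfl⟩
    exact ⟨a, a.2, rfl⟩

theorem exists_isHopfOrderA_of_isOrd_aux {A : ValuationSubring Qb} {X : Type} [AddCommGroup X]
    [Finite X] (act : GQ →* AddMonoid.End X) (S : Subring (X → Qb)) (hS : FFG.IsOrd A S)
    (hadd : ∀ φ ∈ S, (fun p : X × X => φ (p.1 + p.2)) ∈ FFG.prodOrd S S)
    (𝒳 : Set (X → Qb)) (hgen : S = FFG.genOrd A 𝒳)
    (heq : ∀ φ ∈ 𝒳, ∀ σ ∈ A.inertiaSubgroupIn ℚ, FLAT.IsEquiv act σ φ) :
    ∃ H : Subalgebra A (X → Qb), FLAT.IsHopfOrderA A act H := by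
  classical
  have := Fintype.ofFinite X
  have hH : ∀ φ : X → Qb, φ ∈ Algebra.adjoin A 𝒳 ↔ φ ∈ S := by
    intro φ
    rw [hgen, genOrd_eq_adjoin_toSubring]
    rfl
  refine ⟨Algebra.adjoin A 𝒳, ⟨?_, ?_, ?_, ⟨𝒳, rfl, heq⟩⟩⟩
  · intro h hh x
    exact hS.int h ((hH h).1 hh) x
  · obtain ⟨π, hπ, hc⟩ := hS.cond
    rw [eq_top_iff]
    intro φ _
    have hδ : ∀ x : X, (Pi.single x 1 : X → Qb) ∈
        Submodule.span Qb ((Algebra.adjoin A 𝒳 : Subalgebra A (X → Qb)) : Set (X → Qb)) := by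
      intro x
      have h1 : (fun z => π * (Pi.single x 1 : X → Qb) z) ∈ S := by
        refine hc _ fun z => ?_
        by_cases hz : z = x
        · subst hz
          simp
        · rw [Pi.single_eq_of_ne hz]
          exact A.zero_mem
      have h2 : (Pi.single x 1 : X → Qb) = π⁻¹ • (fun z => π * (Pi.single x 1 : X → Qb) z) := by
        funext z
        simp only [Pi.smul_apply, smul_eq_mul]
        rw [← mul_assoc, inv_mul_cancel₀ hπ, one_mul]
      rw [h2]
      exact Submodule.smul_mem _ _ (Submodule.subset_span ((hH _).2 h1))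
    have hφ : φ = ∑ x : X, φ x • (Pi.single x 1 : X → Qb) := by
      funext z
      simp only [Finset.sum_apply, Pi.smul_apply, smul_eq_mul]
      rw [Finset.sum_eq_single z]
      · simp
      · intro x _ hx
        rw [Pi.single_eq_of_ne (Ne.symm hx), mul_zero]
      · simp
    rw [hφ]
    exact Submodule.sum_mem _ fun x _ => Submodule.smul_mem _ _ (hδ x)
  · intro h hh
    have h1 := hadd h ((hH h).1 hh)
    rw [FFG.mem_prodOrd_iff] at h1
    obtain ⟨n, a, b, ha, hb, hab⟩ := h1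
    have h2 : (fun p : X × X => h (p.1 + p.2)) = ∑ i : Fin n, fun p : X × X => a i p.1 * b i p.2 := by
      funext p
      rw [hab p, Finset.sum_apply]
    rw [h2]
    refine Submodule.sum_mem _ fun i _ => Submodule.subset_span ?_
    exact ⟨a i, (hH _).2 (ha i), b i, (hH _).2 (hb i), rfl⟩

end Fermat.Agent.MAZ
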