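import Fermat.Agent.FLAT.Inst.Good
import Fermat.Agent.FLAT.Inst.Inertia
import Fermat.Agent.FLAT.Desc.Teich
import Fermat.Agent.RED.GalEq.Abstract

/-!
# MAZ / Geo / [HOPF-B2] : good reduction of `X₀(M)` + the two inertia conditions of `FFG.core`

`exists_good_inertia'` : the reduction map of places `r` of `FLAT.exists_good` can be chosen such that
* `r (galM M σ • P) = r P` for `σ` in the inertia group of `A`;
* outside a finite set of places `Q` of the special fibre there is a local parameter `T` (`IsLocalParam`) fixed by the inertia group.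
-/

set_option autoImplicit false
set_option synthInstance.maxHeartbeats 400000

noncomputable section

open AlgebraicCurve ModularCurve IntermediateField

namespace Fermat.Agent.MAZ

open Fermat.Agent.RED Fermat.Agent.S24 Fermat.Agent.S28 Fermat.Agent.RED.Gauss Fermat.Agent.FLAT

section Abstract

variable {L F k Fb : Type*} [Field L] [Field F] [Algebra L F] [Field k] [Field Fb] [Algebra k Fb]
  {O : ValuationSubring F} {red : O →+* Fb} {r : Place L F → Place k Fb}
  [IsAlgClosed L] [IsAlgClosed k]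

/-- the local parameters of `IsReduction.exists_isLocalParam` are `x - c`, for ANY lift `c` of the value of `x` at `Q`. -/
theorem exists_value_isLocalParam (h : IsReduction O red r)
    {x : F} (hx : IsSepParam L x) (hxb : IsSepParam k (rd O red x))
    (hdeg : Module.finrank k⟮rd O red x⟯ Fb = Module.finrank L⟮x⟯ F)
    {Q : Place k Fb} (hQ : 0 ≤ Q.ord (rd O red x))
    (hQ' : ¬ ∃ a : k, 2 ≤ Q.ord (rd O red x - algebraMap k Fb a)) :
    ∃ a : k, ∀ c : L, algebraMap L F c ∈ O → rd O red (algebraMap L F c) = algebraMap k Fb a →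
      IsLocalParam O red r Q (x - algebraMap L F c) := by
  have hv : O.valuation x = 1 := h.val_eq_one_of_rd_ne_zero hxb.ne_zero
  have hxO : x ∈ O := mem_of_val_le hv.le
  obtain ⟨a, ha⟩ := hxb.exists_value Q ((Place.mem_iff_ord_nonneg Q hxb.ne_zero).mpr hQ)
  have ha' : 0 < Q.ord (rd O red x - algebraMap k Fb a) := by
    rcases ha with ha | ha
    · exfalso
      apply hxb.transcendental
      rw [ha]
      exact isAlgebraic_algebraMap a
    · exact ha
  have ha1 : Q.ord (rd O red x - algebraMap k Fb a) = 1 := by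
    push Not at hQ'
    have := hQ' a
    omega
  refine ⟨a, fun c hcO hc => ?_⟩
  have hrT : rd O red (x - algebraMap L F c) = rd O red x - algebraMap k Fb a := by
    rw [rd_sub hxO hcO, hc]
  exact
    { mem := O.sub_mem hxO hcO
      reg := fun P hP => ord_sub_const_nonneg P (h.reg_of_degree_eq hx hxb hdeg hQ P hP) c
      ord := by rw [hrT, ha1] }

end Abstract

section Level

variable {ℓ : ℕ} [Fact ℓ.Prime] (M : ℕ) [NeZero M] (A : ValuationSubring Qb)
  (hA : A.LiesOverPrime ℓ) (hℓM : ¬ ℓ ∣ M)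

/-- constants of positive valuation reduce to `0`. -/
theorem red_algebraMap_eq_zero {d : Qb} (hd : A.valuation d < 1)
    (hmem : algebraMap Qb (modularFunctionFieldBar M) d ∈ (gaussData A M hA hℓM).O) :
    (gaussData A M hA hℓM).red ⟨algebraMap Qb (modularFunctionFieldBar M) d, hmem⟩ = 0 := by
  by_contra hne
  have h1 := (gaussData A M hA hℓM).inv_mem_of_red_ne_zero hne
  have h2 : algebraMap Qb (modularFunctionFieldBar M) d⁻¹ ∈ (gaussData A M hA hℓM).O := by
    rw [map_inv₀]; exact h1
  rw [algebraMap_mem_gaussData_O] at h2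
  have h3 : A.valuation d⁻¹ ≤ 1 := (A.valuation_le_one_iff _).mpr h2
  have hd0 : d ≠ 0 := by
    rintro rfl
    apply hne
    have : (⟨algebraMap Qb (modularFunctionFieldBar M) 0, hmem⟩ : (gaussData A M hA hℓM).O) = 0 :=
      Subtype.ext (map_zero _)
    rw [this, map_zero]
  have h4 : A.valuation d * A.valuation d⁻¹ = 1 := by
    rw [← map_mul, mul_inv_cancel₀ hd0, map_one]
  have h5 : A.valuation d * A.valuation d⁻¹ < 1 := by
    calc A.valuation d * A.valuation d⁻¹ ≤ A.valuation d * 1 := mul_le_mul_right h3 _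
      _ = A.valuation d := mul_one _
      _ < 1 := hd
  exact absurd h4 h5.ne

/-- every element of the residue field has a lift to `A` fixed by inertia. -/
theorem exists_const_inertia_fixed (a : IsLocalRing.ResidueField A) :
    ∃ c : Qb, algebraMap Qb (modularFunctionFieldBar M) c ∈ (gaussData A M hA hℓM).O ∧
      rd (gaussData A M hA hℓM).O (gaussData A M hA hℓM).red
        (algebraMap Qb (modularFunctionFieldBar M) c) = algebraMap _ _ a ∧
      ∀ σ ∈ A.inertiaSubgroupIn ℚ, σ c = c := by
  obtain ⟨c₀, hc₀, hca⟩ := (gaussData A M hA hℓM).exists_const a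
  have hc₀A : c₀ ∈ A := (algebraMap_mem_gaussData_O M A hA hℓM c₀).mp hc₀
  obtain ⟨c, hcA, hval, hfix⟩ := exists_lift_inertia_fixed hA hc₀A
  have hc : algebraMap Qb (modularFunctionFieldBar M) c ∈ (gaussData A M hA hℓM).O :=
    (algebraMap_mem_gaussData_O M A hA hℓM c).mpr hcA
  have hd : algebraMap Qb (modularFunctionFieldBar M) (c₀ - c) ∈ (gaussData A M hA hℓM).O :=
    (algebraMap_mem_gaussData_O M A hA hℓM _).mpr (A.sub_mem hc₀A hcA)
  refine ⟨c, hc, ?_, hfix⟩
  have h0 := red_algebraMap_eq_zero M A hA hℓM hval hd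
  have h1 : (⟨algebraMap Qb (modularFunctionFieldBar M) (c₀ - c), hd⟩ :
      (gaussData A M hA hℓM).O) = ⟨_, hc₀⟩ - ⟨_, hc⟩ := Subtype.ext (map_sub _ _ _)
  rw [h1, map_sub, sub_eq_zero] at h0
  rw [rd_of_mem hc, ← h0, hca]

set_option maxHeartbeats 1600000 in
/-- **[HOPF-B2]** good reduction + the two inertia conditions of `FFG.core`. -/
theorem exists_good_inertia' (h49 : 4 ∣ M ∨ 9 ∣ M) :
    ∃ r : Place Qb (modularFunctionFieldBar M) →
        Place (IsLocalRing.ResidueField A)
          (modularFunctionFieldFullC (IsLocalRing.ResidueField A) M),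
      FFG.Good (gaussData A M hA hℓM) r ∧
      (∀ σ ∈ A.inertiaSubgroupIn ℚ, ∀ P, r (galM M σ • P) = r P) ∧
      ∃ B : Set (Place (IsLocalRing.ResidueField A)
          (modularFunctionFieldFullC (IsLocalRing.ResidueField A) M)), B.Finite ∧ ∀ Q, Q ∉ B →
        ∃ T : modularFunctionFieldBar M,
          IsLocalParam (gaussData A M hA hℓM).O (gaussData A M hA hℓM).red r Q T ∧
          ∀ σ ∈ A.inertiaSubgroupIn ℚ, galM M σ • T = T := by
  have := charP_residueField A hA
  have := isAlgClosed_residueField A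
  have hgen : gR (AlgebraicClosure ℚ) (modularFunctionFieldBar M) ≤
      gR (IsLocalRing.ResidueField A)
        (modularFunctionFieldFullC (IsLocalRing.ResidueField A) M) :=
    gen_of_rhRel M (fun _ _ _ _ _ _ _ _ _ _ _ _ h1 h2 => Fermat.Agent.RR.rhRel h1 h2) h49 _ hℓM
  obtain ⟨c, H⟩ := exists_deuringHyp_gaussData M A hA hℓM hgen
  obtain ⟨r, hsurj, hP1, -⟩ := H.exists_placeMap
  have hx := isSepParam_jF_deu M
  have hxb := Cusp.isSepParam_jb M (IsLocalRing.ResidueField A) ℓ hℓM
  have hred : IsReduction (gaussData A M hA hℓM).O (gaussData A M hA hℓM).red r :=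
    (gaussData A M hA hℓM).isReduction hx r hP1
  have hxb' : IsSepParam (IsLocalRing.ResidueField A)
      (rd (gaussData A M hA hℓM).O (gaussData A M hA hℓM).red (jF M)) := by
    rw [rd_jF]; exact hxb
  have hpar : ∀ Q, Q ∉ {Q | Q.ord (Cusp.jb (IsLocalRing.ResidueField A) M) < 0} ∪
      {Q | ∃ a : IsLocalRing.ResidueField A,
        2 ≤ Q.ord (Cusp.jb (IsLocalRing.ResidueField A) M - algebraMap _ _ a)} →
      ∃ T : modularFunctionFieldBar M,
          IsLocalParam (gaussData A M hA hℓM).O (gaussData A M hA hℓM).red r Q T ∧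
          ∀ σ ∈ A.inertiaSubgroupIn ℚ, galM M σ • T = T := by
    intro Q hQ
    obtain ⟨a, ha⟩ := exists_value_isLocalParam hred hx hxb'
      (by rw [rd_jF, Cusp.finrank_jb M (IsLocalRing.ResidueField A) ℓ hℓM, RB.finrank_jF])
      (Q := Q)
      (by
        rw [rd_jF]
        by_contra hneg
        exact hQ (Or.inl (not_le.mp hneg)))
      (by
        rw [rd_jF]
        exact fun hh => hQ (Or.inr hh))
    obtain ⟨c, hcO, hc, hfix⟩ := exists_const_inertia_fixed M A hA hℓM a
    refine ⟨_, ha c hcO hc, fun σ hσ => ?_⟩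
    rw [smul_sub, galM_smul_jF, SemilinearAut.smul_algebraMap, baseAut_galM, hfix σ hσ]
  refine ⟨r, ⟨⟨_, hx⟩, ⟨_, hxb⟩, hP1, hsurj, H.on, hgen, ?_, ?_⟩, ?_, ?_⟩
  · rw [constRing_gaussData]; exact isArch A hA
  · exact ⟨_, hxb.finite_poles.union hxb.finite_ramified, fun Q hQ => (hpar Q hQ).imp fun _ h => h.1⟩
  · intro σ hσ P
    have := GalEq.placeMap_smul H hP1 hsurj (compat_inertia M A hA hℓM hσ) P
    rwa [one_smul] at this
  · exact ⟨_, hxb.finite_poles.union hxb.finite_ramified, hpar⟩

end Level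

end Fermat.Agent.MAZ
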