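import Fermat.Agent.MAZ.Geo.Basic
import Fermat.Agent.S17.WMW.Geom
import Fermat.Agent.S54.Frobenius

/-!
# MAZ / Geo : [UNR-W], smoothness
-/

set_option autoImplicit false

noncomputable section

namespace Fermat.Agent.MAZ

open ModularCurve AlgebraicCurve
open Fermat.Agent.FLAT (Qb GQ)

theorem smul_nsmul_comm {N : ℕ} (σ : GQ) (n : ℕ) (x : JZero N) : σ • (n • x) = n • (σ • x) :=
  map_nsmul (DistribSMul.toAddMonoidHom (JZero N) σ) n x

/-- **[UNR-W]** division points of `σ`-fixed points are fixed by the inertia groups at `q ∤ N r`. -/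
theorem geo_unr {N r : ℕ} [NeZero N] {q : ℕ} (hq : q.Prime) (hqN : ¬ q ∣ N * r)
    (B : ValuationSubring Qb) (hB : B.LiesOverPrime q) {σ : GQ} (hσ : σ ∈ B.inertiaSubgroupIn ℚ)
    (k : ℕ) (z : JZero N) (hz : σ • (r ^ k • z) = r ^ k • z) : σ • z = z := by
  letI := heckeModuleBar N
  haveI := Fermat.Agent.GAL.HeckeGalois.smulCommClass_heckeModuleBar N
  obtain ⟨J', _, _, sp, F, hsp, -⟩ := Fermat.Agent.S37.result N r
    (Fermat.Agent.GAL.HeckeComm.heckeOperatorsCommuteBar N)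
    (Fermat.Agent.GAL.HeckeGalois.smulCommClass_heckeModuleBar N) q hq hqN B hB
  have h1 : σ • z - z = 0 := by
    apply hsp.injective_torsion
    · exact ⟨k, by rw [nsmul_sub, ← smul_nsmul_comm, hz, sub_self]⟩
    · rw [map_sub, hsp.inertia_comm σ hσ, sub_self]
  exact sub_eq_zero.1 h1

/-- every point of `J₀(N)(ℚ̄)` has an open stabiliser. -/
theorem geo_smooth (N : ℕ) [NeZero N] (z : JZero N) :
    ∃ L : IntermediateField ℚ Qb, FiniteDimensional ℚ L ∧
      ∀ σ : GQ, (∀ y ∈ L, σ y = y) → actJ N σ z = z :=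
  Fermat.Agent.S17.WMW.exists_finiteLevel_pic0 (modularFunctionFieldFull N) z

end Fermat.Agent.MAZ
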