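import Fermat.Agent.MAZ.Hopf.Fib
import Fermat.Agent.MAZ.Geo.HopfB1
import Fermat.Agent.MAZ.Geo.Unr
import Fermat.Agent.FLAT.Inst.Good
import Fermat.Agent.FLAT.Inst.Inertia
import Fermat.Agent.FLAT.Desc.Main

/-!
# MAZ / Geo / [HOPF-B3] : Hopf orders at a level `M` with good reduction data

`exists_isHopfOrder_of_section_level_aux` : the statement [HOPF-B3] of `Geo/HopfMod.lean`, with the output of [HOPF-B2]
(`exists_good_inertia`) as a hypothesis.
-/

set_option autoImplicit false
set_option synthInstance.maxHeartbeats 400000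

noncomputable section

open AlgebraicCurve ModularCurve

namespace Fermat.Agent.MAZ

open Fermat.Agent.RED hiding GQ Kb
open Fermat.Agent.S24 Fermat.Agent.FLAT

theorem pic0_mk_eq_mk_iff {K F : Type*} [Field K] [Field F] [Algebra K F]
    (D E : Divisor.degZero (K := K) (F := F)) :
    Pic0.mk D = Pic0.mk E ↔ Divisor.IsPrincipal ((D : Divisor K F) - (E : Divisor K F)) := by
  unfold Pic0.mk
  rw [QuotientAddGroup.eq, AddSubgroup.mem_addSubgroupOf, ← Divisor.mem_principal,
    ← neg_mem_iff (H := Divisor.principal (K := K) (F := F))]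
  have h : -(((-D + E : Divisor.degZero (K := K) (F := F)) : Divisor K F)) =
      (D : Divisor K F) - (E : Divisor K F) := by
    push_cast
    abel
  rw [h]

theorem exists_isHopfOrder_of_section_level_aux {M ℓ : ℕ} [NeZero M] [Fact ℓ.Prime]
    (hℓM : ¬ ℓ ∣ M) (A : ValuationSubring Qb) (hA : A.LiesOverPrime ℓ)
    (hB2 : ∃ r : Place Qb (modularFunctionFieldBar M) →
        Place (IsLocalRing.ResidueField A)
          (modularFunctionFieldFullC (IsLocalRing.ResidueField A) M),
      FFG.Good (gaussData A M hA hℓM) r ∧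
      (∀ σ ∈ A.inertiaSubgroupIn ℚ, ∀ P, r (galM M σ • P) = r P) ∧
      ∃ B : Set (Place (IsLocalRing.ResidueField A)
          (modularFunctionFieldFullC (IsLocalRing.ResidueField A) M)), B.Finite ∧ ∀ Q, Q ∉ B →
        ∃ T : modularFunctionFieldBar M,
          IsLocalParam (gaussData A M hA hℓM).O (gaussData A M hA hℓM).red r Q T ∧
          ∀ σ ∈ A.inertiaSubgroupIn ℚ, galM M σ • T = T)
    {X C : Type} [AddCommGroup X] [Finite X] [AddCommGroup C] (act : GQ →* AddMonoid.End X)
    (π : X →+ C) (hπ : ∀ (σ : GQ) (x : X), π (act σ x) = π x)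
    (s : X → JZero M) (hsσ : ∀ (σ : GQ) (x : X), s (act σ x) = σ • s x)
    (hinj : ∀ x x' : X, π x = π x' → s x = s x' → x = x')
    (d : C → C → JZero M) (hadd : ∀ x x' : X, s x + s x' = s (x + x') + d (π x) (π x')) :
    ∃ H : Subalgebra (Zl ℓ) (X → Qb), FLAT.IsHopfOrder ℓ act H := by
  haveI : IsAlgClosed (IsLocalRing.ResidueField A) := GalEq.isAlgClosed_residueField A
  obtain ⟨r, G, hr, B, hBfin, hB⟩ := hB2
  choose y hy using fun x => Pic0.mk_surjective (s x)
  choose D hD using fun c c' => Pic0.mk_surjective (d c c')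
  obtain ⟨S, hS, hcomul, 𝒢, hgen, heq⟩ := fib_core G
    {γ | ∃ σ ∈ A.inertiaSubgroupIn ℚ, γ = galM M σ}
    (by rintro _ ⟨σ, hσ, rfl⟩ P; exact hr σ hσ P)
    ⟨B, hBfin, fun Q hQ => by
      obtain ⟨T, hT, hT'⟩ := hB Q hQ
      exact ⟨T, hT, by rintro _ ⟨σ, hσ, rfl⟩; exact hT' σ hσ⟩⟩
    π (y := fun x => (y x : Divisor Qb (modularFunctionFieldBar M))) (fun x => (y x).2)
    (fun x x' h h' => hinj x x' h (by rw [← hy, ← hy, pic0_mk_eq_mk_iff]; exact h'))
    (fun c c' => (D c c' : Divisor Qb (modularFunctionFieldBar M))) (fun c c' => (D c c').2)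
    (fun x x' => by
      have h1 : Pic0.mk (y x + y x') = Pic0.mk (y (x + x') + D (π x) (π x')) := by
        rw [Pic0.mk_add, Pic0.mk_add, hy, hy, hy, hD, hadd]
      rw [pic0_mk_eq_mk_iff] at h1
      have h2 : (((y x + y x' : Divisor.degZero (K := Qb) (F := modularFunctionFieldBar M)) :
            Divisor Qb (modularFunctionFieldBar M)) -
          ((y (x + x') + D (π x) (π x') : Divisor.degZero (K := Qb)
            (F := modularFunctionFieldBar M)) : Divisor Qb (modularFunctionFieldBar M))) =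
          (y x : Divisor Qb (modularFunctionFieldBar M)) + y x' - y (x + x') - D (π x) (π x') := by
        push_cast
        abel
      rw [h2] at h1
      exact h1)
  rw [constRing_gaussData] at hS hgen
  obtain ⟨H, hH⟩ := exists_isHopfOrderA_of_isOrd_aux act S hS hcomul 𝒢 hgen
    (fun φ hφ σ hσ x =>
      heq φ hφ (galM M σ) ⟨σ, hσ, rfl⟩ (act σ) (hπ σ) (fun x => by
        have h1 : Pic0.mk (y (act σ x)) = Pic0.mk (SemilinearAut.degZeroSMulHom (galM M σ) (y x)) := by
          rw [hy, hsσ, ← hy x]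
          rfl
        rw [pic0_mk_eq_mk_iff] at h1
        exact h1) x)
  refine FLAT.exists_isHopfOrder hA (fun x => ?_) hH
  obtain ⟨L, hL, h⟩ := geo_smooth M (s x)
  refine ⟨L, hL, fun σ hσ => hinj _ _ (hπ σ x) ?_⟩
  rw [hsσ]
  exact h σ hσ

end Fermat.Agent.MAZ
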