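import Fermat.Agent.MAZ.Hopf.Fib
import Fermat.Agent.MAZ.Geo.HopfB1
import Fermat.Agent.MAZ.Geo.HopfB3
import Fermat.Agent.MAZ.Geo.Unr
import Fermat.Agent.FLAT.Inst.Good
import Fermat.Agent.FLAT.Inst.Inertia
import Fermat.Agent.FLAT.Inst.Tors
import Fermat.Agent.FLAT.Desc.Main
import Fermat.Agent.MAZ.Geo.HopfB1
import Fermat.Agent.MAZ.Geo.HopfB2

/-!
# MAZ / Geo / [HOPF-B] : Hopf orders over `ℤ_(ℓ)` on finite `G_ℚ`-modules "inside" `J₀(N)(ℚ̄)`, `ℓ ∤ N`

MAIN RESULT `exists_isHopfOrder_of_section` : `X` a finite abelian group with `G_ℚ`-action, `π : X →+ C` invariant,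
`s : X → J₀(N)(ℚ̄)` an equivariant MAP, injective on the fibres of `π`, additive up to a carry depending only on `(π x, π x')`.
Then `X` carries a Hopf order over `ℤ_(ℓ)` (`FLAT.IsHopfOrder`).

* `C = 0`, `s` = inclusion : Galois stable finite subgroups of `J₀(N)(ℚ̄)`.
* `X = V × ZMod n`, `π = snd`, `s (v, m) = v + m.val • ε z₀` : the extension of `MAZ/Abs/Ext.lean`.

PAPER PROOF.  `M := N * aux ℓ`, `A | ℓ` any place (`S54.exists_liesOverPrime`), `R := gaussData A M hA hℓM`,
`r` from `FLAT.exists_good`, `II := {galM M σ | σ ∈ I_A}`.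
1. (`hr`) `GalEq.placeMap_smul` (or `placeMap_smul_of`) + `FLAT.compat_inertia` : `r (γ • P) = r P`.
2. (`hpar`) copy the last part of the proof of `FLAT.exists_good` (`T = jF M - c`, `IsReduction.exists_isLocalParam`), choosing the lift
   `c` of the value of `jb` at `Q` fixed by inertia: `FLAT.exists_lift_inertia_fixed`; `galM_smul_jF`.
3. `s' := B^* ∘ s : X → J₀(M)`.  For `x, x'` in one fibre `s x - s x'` is torsion (from `hadd` with `x' = x + u`, `π u = 0`:
   `u ↦ s u - s 0` is a homomorphism on the finite group `ker π` and `s (x + u) - s x = s u - s 0`), so `s'` is still injective on the fibres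
   (`RED.Bstar_eq_zero_of_torsion`).  Choose divisors `y x` with `Pic0.mk (y x) = s' x` and `D c c'` representing the carry.
4. `fibOrd R r π y` : `isOrd_fibOrd`, `fibOrd_comul`, `fibOrd_eq_genOrd` (MAZ/Hopf/Fib.lean) (`a := act σ`; `y (act σ x) ∼ galM M σ • y x` by `RED.Bstar_smul`).
5. `exists_isHopfOrderA_of_isOrd`, then `FLAT.exists_isHopfOrder` (`SmoothAct` : `geo_smooth` + injectivity on the fibres).
-/

set_option autoImplicit false
set_option synthInstance.maxHeartbeats 400000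

noncomputable section

open AlgebraicCurve ModularCurve

namespace Fermat.Agent.MAZ

open Fermat.Agent.RED hiding GQ Kb
open Fermat.Agent.S24 Fermat.Agent.FLAT

/-- **[HOPF-B1]** from the `FFG` shape to `FLAT.IsHopfOrderA`.
(`H` := the subalgebra with carrier `S` (`IsOrd.const`); `integral` = `IsOrd.int`; `span_top` from `IsOrd.cond` applied to the indicators of
points; `comul` from `FFG.mem_prodOrd_iff`; `gen` : `genOrd A 𝒳 = Algebra.adjoin A 𝒳` as sets, cf. `FFG.mem_genOrd_iff`.) -/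
theorem exists_isHopfOrderA_of_isOrd {A : ValuationSubring Qb} {X : Type} [AddCommGroup X]
    [Finite X] (act : GQ →* AddMonoid.End X) (S : Subring (X → Qb)) (hS : FFG.IsOrd A S)
    (hadd : ∀ φ ∈ S, (fun p : X × X => φ (p.1 + p.2)) ∈ FFG.prodOrd S S)
    (𝒳 : Set (X → Qb)) (hgen : S = FFG.genOrd A 𝒳)
    (heq : ∀ φ ∈ 𝒳, ∀ σ ∈ A.inertiaSubgroupIn ℚ, FLAT.IsEquiv act σ φ) :
    ∃ H : Subalgebra A (X → Qb), FLAT.IsHopfOrderA A act H :=
  exists_isHopfOrderA_of_isOrd_aux act S hS hadd 𝒳 hgen heq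

section Level

variable {ℓ : ℕ} [Fact ℓ.Prime] (M : ℕ) [NeZero M] (A : ValuationSubring Qb)
  (hA : A.LiesOverPrime ℓ) (hℓM : ¬ ℓ ∣ M)

/-- **[HOPF-B2]** good reduction + the two inertia conditions of `FFG.core`. -/
theorem exists_good_inertia (h49 : 4 ∣ M ∨ 9 ∣ M) :
    ∃ r : Place Qb (modularFunctionFieldBar M) →
        Place (IsLocalRing.ResidueField A)
          (modularFunctionFieldFullC (IsLocalRing.ResidueField A) M),
      FFG.Good (gaussData A M hA hℓM) r ∧
      (∀ σ ∈ A.inertiaSubgroupIn ℚ, ∀ P, r (galM M σ • P) = r P) ∧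
      ∃ B : Set (Place (IsLocalRing.ResidueField A)
          (modularFunctionFieldFullC (IsLocalRing.ResidueField A) M)), B.Finite ∧ ∀ Q, Q ∉ B →
        ∃ T : modularFunctionFieldBar M,
          IsLocalParam (gaussData A M hA hℓM).O (gaussData A M hA hℓM).red r Q T ∧
          ∀ σ ∈ A.inertiaSubgroupIn ℚ, galM M σ • T = T :=
  exists_good_inertia' M A hA hℓM h49

end Level

/-- **[HOPF-B3]** at a level `M` with `4 ∣ M` or `9 ∣ M`. -/
theorem exists_isHopfOrder_of_section_level {M ℓ : ℕ} [NeZero M] [Fact ℓ.Prime] (hℓM : ¬ ℓ ∣ M)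
    (h49 : 4 ∣ M ∨ 9 ∣ M)
    {X C : Type} [AddCommGroup X] [Finite X] [AddCommGroup C] (act : GQ →* AddMonoid.End X)
    (π : X →+ C) (hπ : ∀ (σ : GQ) (x : X), π (act σ x) = π x)
    (s : X → JZero M) (hsσ : ∀ (σ : GQ) (x : X), s (act σ x) = σ • s x)
    (hinj : ∀ x x' : X, π x = π x' → s x = s x' → x = x')
    (d : C → C → JZero M) (hadd : ∀ x x' : X, s x + s x' = s (x + x') + d (π x) (π x')) :
    ∃ H : Subalgebra (Zl ℓ) (X → Qb), FLAT.IsHopfOrder ℓ act H := by
  obtain ⟨A, hA⟩ := Fermat.Agent.S54.exists_liesOverPrime (Fact.out : ℓ.Prime)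
  exact exists_isHopfOrder_of_section_level_aux hℓM A hA (exists_good_inertia M A hA hℓM h49)
    act π hπ s hsσ hinj d hadd

/-- **[HOPF]** main result. -/
theorem exists_isHopfOrder_of_section {N ℓ : ℕ} [NeZero N] [Fact ℓ.Prime] (hℓN : ¬ ℓ ∣ N)
    {X C : Type} [AddCommGroup X] [Finite X] [AddCommGroup C] (act : GQ →* AddMonoid.End X)
    (π : X →+ C) (hπ : ∀ (σ : GQ) (x : X), π (act σ x) = π x)
    (s : X → JZero N) (hsσ : ∀ (σ : GQ) (x : X), s (act σ x) = σ • s x)
    (hinj : ∀ x x' : X, π x = π x' → s x = s x' → x = x')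
    (d : C → C → JZero N) (hadd : ∀ x x' : X, s x + s x' = s (x + x') + d (π x) (π x')) :
    ∃ H : Subalgebra (Zl ℓ) (X → Qb), FLAT.IsHopfOrder ℓ act H := by
  classical
  have hℓ : ℓ.Prime := Fact.out
  set hB := RED.heckeInputsAlong' N (aux ℓ) with hhB
  -- `s (x + u) = s x + (s u - s 0)` for `u ∈ ker π`
  have hd0 : ∀ x : X, d (π x) 0 = s 0 := by
    intro x
    have h := hadd x 0
    rw [add_zero, map_zero] at h
    exact (add_left_cancel h).symm
  have hshift : ∀ x u : X, π u = 0 → s (x + u) = s x + (s u - s 0) := by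
    intro x u hu
    have h := hadd x u
    rw [hu, hd0] at h
    rw [add_sub_assoc', h]
    abel
  have hnsmul : ∀ (u : X), π u = 0 → ∀ n : ℕ, s (n • u) - s 0 = n • (s u - s 0) := by
    intro u hu n
    induction n with
    | zero => simp
    | succ n ih =>
      rw [succ_nsmul, hshift _ u hu, succ_nsmul, ← ih]
      abel
  have htors : ∀ x x' : X, π x = π x' → Nat.card X • (s x' - s x) = 0 := by
    intro x x' hxx
    have hu : π (x' - x) = 0 := by rw [map_sub, hxx, sub_self]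
    have h1 := hshift x (x' - x) hu
    rw [add_sub_cancel] at h1
    have h2 := hnsmul (x' - x) hu (Nat.card X)
    rw [card_nsmul_eq_zero', sub_self] at h2
    rw [h1, add_sub_cancel_left, ← h2]
  refine exists_isHopfOrder_of_section_level (M := N * aux ℓ) (not_dvd_mul_aux hℓ hℓN)
    ((aux_eq ℓ).imp (fun h => by rw [h]; exact Dvd.intro_left N rfl)
      (fun h => by rw [h]; exact Dvd.intro_left N rfl))
    act π hπ (fun x => Bstar N (aux ℓ) hB (s x)) (fun σ x => ?_) (fun x x' hxx hs => ?_)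
    (fun c c' => Bstar N (aux ℓ) hB (d c c')) (fun x x' => ?_)
  · rw [hsσ]
    exact RED.Bstar_smul N (aux ℓ) hB σ (s x)
  · refine hinj x x' hxx ?_
    have h0 : Bstar N (aux ℓ) hB (s x' - s x) = 0 := by rw [map_sub, hs, sub_self]
    have := RED.Bstar_eq_zero_of_torsion N (aux ℓ) (aux_eq ℓ) hB (s x' - s x) (Nat.card X)
      Nat.card_pos.ne' (htors x x' hxx) h0
    exact (sub_eq_zero.1 this).symm
  · rw [← map_add, ← map_add, hadd]

end Fermat.Agent.MAZ
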