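import Fermat.Agent.MAZ.Geo.Unr
import Fermat.Agent.SS.Mod.S34Wire
import Fermat.Agent.SS.Mod.CuspOrdC
import Fermat.Agent.S19.C.Family
import Fermat.Agent.S19.M.Pkg

/-!
# MAZ / Geo / [UNIP-W] : `(σ' - 1)(σ - 1) z = 0` for `σ, σ' ∈ I_N`, `r^k z ∈ J₀(N)(ℚ)`, `N` prime, `r ≠ N`

RECIPE (all tools are in `SS/`, sorry-free; this is `SS.unip_of_cuspOrd` with `r^k z = 0` replaced by `r^k z` rational).
1. ABSTRACT (setting of `SS/Abs/Main.lean`).  Variant of `SS.isToric_smul_sub` :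
   `(hy : m • y = Pic0.mk D₀) (hD₀ : g • (D₀ : Divisor K F) = D₀) : IsToric T m (g • y - y)`.
   Same proof: `y = [D]`, `m D - D₀ = div f`, so `m (g D - D) = div (g f / f)` and `RedData_smul_div` applies verbatim.
   Then `SS.smul_eq_nsmul_of_isToric 𝒩 hx hb hp hpk e hg' 1 _` gives `g' • (g • y - y) = g • y - y` (as in `unipotent_of_torsion`).
2. LEVEL `M * q` (as in `SS.unip_of_hasNodal`; `HasNodal` from `SS.hasNodal_of_cuspOrd hqM h49 (SS.cuspOrd M q)`, `SS.exists_level`,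
   `isCompat_of_mem_inertia`).  A RATIONAL class `y₀` has a Galois invariant divisor: take the reduced representative with respect to the
   rational place `∞` : `S27.exists_isRed`, `S27.IsRed.eq_of_bcl_eq`, `S19.isRed_smul`, `S19.bcl_smul` (see the 5-line proof of
   `S19.RedPkg.exists_reduced_family` in `S19/C/Family.lean`; a Galois fixed place: `S19/M/Place.lean`).
3. DESCENT `N * aux q → N` : `w := σ' • (σ • z - z) - (σ • z - z)` is killed by `r ^ k`, `Bstar w = 0` by 2. and `RED.Bstar_smul`, so `w = 0` by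
   `RED.Bstar_eq_zero_of_torsion`.
-/

set_option autoImplicit false
set_option linter.unusedSectionVars false
set_option synthInstance.maxHeartbeats 400000

noncomputable section

namespace Fermat.Agent.MAZ

open ModularCurve AlgebraicCurve
open Fermat.Agent.FLAT (Qb GQ)

section Abs

open Fermat.Agent.RED Fermat.Agent.S24 Fermat.Agent.SS

variable {K F k Fb : Type*} [Field K] [Field F] [Algebra K F] [Field k] [Field Fb] [Algebra k Fb]
  [IsAlgClosed K] [IsAlgClosed k] {x : F} {t : Fb}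

variable {T : TwoRed K F k Fb} (𝒩 : NodalData T)

/-- `(g - 1) y` is toric if `g` induces the identity on the residue fields and `m y` is the class
of a `g`-invariant divisor. -/
theorem isToric_smul_sub_of_fixed (hx : IsSepParam K x) {m : ℕ} (hm : m ≠ 0)
    {g : SemilinearAut K F} (hg : IsCompat 𝒩 g 1) {y : Pic0 K F}
    {D₀ : Divisor.degZero (K := K) (F := F)} (hy : m • y = Pic0.mk D₀)
    (hD₀ : g • (D₀ : Divisor K F) = D₀) : IsToric T m (g • y - y) := by
  obtain ⟨D, rfl⟩ := Pic0.mk_surjective y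
  have hy' : Pic0.mk (m • D - D₀) = 0 := by
    rw [pic0_mk_sub, pic0_mk_nsmul, hy, sub_self]
  obtain ⟨f, hf, hfD⟩ := isPrincipal_of_pic0_mk_eq_zero hy'
  have hfD' : ∀ v : Place K F,
      (m : ℤ) * (D : Divisor K F) v = v.ord f + (D₀ : Divisor K F) v := by
    intro v
    rw [← hfD v]
    show _ = (m • (D : Divisor K F) - (D₀ : Divisor K F)) v + _
    rw [Finsupp.sub_apply, Finsupp.smul_apply, nsmul_eq_mul, sub_add_cancel]
  obtain ⟨h₁, a₁, ha₁, hr₁⟩ := RedData_smul_div T.R₁ g hg.mem₁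
    (fun u => by rw [hg.red₁ u, one_smul]) (fun c hc => hg.unit c hc) hf
  obtain ⟨h₂, a₂, ha₂, hr₂⟩ := RedData_smul_div T.R₂ g hg.mem₂
    (fun u => by rw [hg.red₂ u, one_smul]) (fun c hc => (T.const_mem _).1 (hg.unit c hc)) hf
  obtain ⟨b₁, hb₁⟩ := IsAlgClosed.exists_pow_nat_eq a₁ (Nat.pos_of_ne_zero hm)
  obtain ⟨b₂, hb₂⟩ := IsAlgClosed.exists_pow_nat_eq a₂ (Nat.pos_of_ne_zero hm)
  have hb₁0 : b₁ ≠ 0 := by
    rintro rfl
    rw [zero_pow hm] at hb₁
    exact ha₁ hb₁.symm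
  have hb₂0 : b₂ ≠ 0 := by
    rintro rfl
    rw [zero_pow hm] at hb₂
    exact ha₂ hb₂.symm
  refine ⟨SemilinearAut.degZeroSMulHom g D - D, ⟨(g • f) * f⁻¹, h₁, h₂⟩, algebraMap k Fb b₁,
    algebraMap k Fb b₂, ?_, ?_, ?_, ?_, ?_⟩
  · rw [SemilinearAut.pic0_smul_mk, pic0_mk_sub]
  · intro v
    show (m : ℤ) * (g • (D : Divisor K F) - (D : Divisor K F)) v = v.ord ((g • f) * f⁻¹)
    have hgf : g • f ≠ 0 := by
      rw [Ne, smul_eq_zero_iff_eq]
      exact hf
    have key : v.ord (g • f) = (g⁻¹ • v).ord f := by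
      have := SemilinearAut.ord_smul g (g⁻¹ • v) f
      rwa [smul_inv_smul] at this
    have key2 : (D₀ : Divisor K F) (g⁻¹ • v) = (D₀ : Divisor K F) v := by
      conv_rhs => rw [← hD₀]
      rw [SemilinearAut.divisor_smul_apply]
    rw [Finsupp.sub_apply, SemilinearAut.divisor_smul_apply, mul_sub, hfD', hfD', key2,
      v.ord_mul hgf (inv_ne_zero hf), v.ord_inv, key]
    ring
  · rwa [Ne, map_eq_zero]
  · rwa [Ne, map_eq_zero]
  · apply Prod.ext
    · show T.R₁.red ⟨_, h₁⟩ = algebraMap k Fb b₁ ^ m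
      rw [hr₁, ← map_pow, hb₁]
    · show T.R₂.red ⟨_, h₂⟩ = algebraMap k Fb b₂ ^ m
      rw [hr₂, ← map_pow, hb₂]

/-- unipotency on the division points of invariant divisor classes -/
theorem unipotent_of_fixed (hx : IsSepParam K x) (hb : IsSepParam k t) {p : ℕ}
    (hp : p.Prime) (hpk : (p : k) ≠ 0) (e : ℕ) {g g' : SemilinearAut K F}
    (hg : IsCompat 𝒩 g 1) (hg' : IsCompat 𝒩 g' 1) {y : Pic0 K F}
    {D₀ : Divisor.degZero (K := K) (F := F)} (hy : p ^ e • y = Pic0.mk D₀)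
    (hD₀ : g • (D₀ : Divisor K F) = D₀) :
    g' • (g • y - y) = g • y - y := by
  have h := smul_eq_nsmul_of_isToric 𝒩 hx hb hp hpk e hg' 1 (fun ζ _ => by simp)
    (isToric_smul_sub_of_fixed 𝒩 hx (pow_ne_zero _ hp.ne_zero) hg hy hD₀)
  rwa [one_smul] at h

end Abs

/-- a rational class is the class of a Galois invariant divisor. -/
theorem exists_fixed_divisor (M : ℕ) [NeZero M] (y : JZero M) (hy : ∀ τ : GQ, τ • y = y) :
    ∃ D₀ : Divisor.degZero (K := Qb) (F := modularFunctionFieldBar M), Pic0.mk D₀ = y ∧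
      ∀ τ : GQ, S19.galM M τ • (D₀ : Divisor Qb (modularFunctionFieldBar M)) = D₀ := by
  obtain ⟨v, hv⟩ := S19.exists_rational_place M
  obtain ⟨E, hE, hEy⟩ := S27.exists_isRed v y
  have hfix : ∀ τ : GQ, S19.galM M τ • E = E := by
    intro τ
    refine (S19.isRed_smul (S19.galM M τ) (hv τ) hE).eq_of_bcl_eq hE ?_
    rw [S19.bcl_smul (S19.galM M τ) (hv τ), hEy]
    exact hy τ
  refine ⟨⟨E - Divisor.degree E • Finsupp.single v 1, S27.degree_sub_smul v E⟩, ?_, fun τ => ?_⟩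
  · rw [← hEy, S27.bcl, S27.dcl_of_degree (S27.degree_sub_smul v E)]
  · show S19.galM M τ • (E - Divisor.degree E • Finsupp.single v (1 : ℤ)) = _
    rw [S19.smul_sub_degree (S19.galM M τ) (hv τ), hfix τ]

/-- the statement at a level `L` -/
def UnipW (L r q : ℕ) : Prop :=
  ∀ A : ValuationSubring Qb, A.LiesOverPrime q → ∀ σ ∈ A.inertiaSubgroupIn ℚ,
    ∀ σ' ∈ A.inertiaSubgroupIn ℚ, ∀ (k : ℕ) (z : JZero L),
      (∀ τ : GQ, τ • (r ^ k • z) = r ^ k • z) → σ' • (σ • z - z) = σ • z - z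

section Level

open Fermat.Agent.RED

variable {M q : ℕ} [NeZero M] [hq : Fact q.Prime] (hqM : ¬ q ∣ M)

theorem unipW_of_hasNodal (H : SS.HasNodal M q hqM) {r : ℕ} (hr : r.Prime) (hrq : r ≠ q) :
    UnipW (M * q) r q := by
  intro A hA σ hσ σ' hσ' k z hz
  have : IsAlgClosed (IsLocalRing.ResidueField A) := GalEq.isAlgClosed_residueField A
  have : CharP (IsLocalRing.ResidueField A) q := GalEq.charP_residueField hq.out hA
  obtain ⟨𝒩, hP⟩ := H A hA
  have hg := SS.isCompat_of_mem_inertia hqM A hσ 𝒩 hP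
  have hg' := SS.isCompat_of_mem_inertia hqM A hσ' 𝒩 hP
  have hpk : (r : IsLocalRing.ResidueField A) ≠ 0 := by
    intro h0
    have := (CharP.cast_eq_zero_iff (IsLocalRing.ResidueField A) q r).1 h0
    exact hrq ((Nat.prime_dvd_prime_iff_eq hq.out hr).1 this).symm
  obtain ⟨D₀, hD₀, hfix⟩ := exists_fixed_divisor (M * q) (r ^ k • z) hz
  exact unipotent_of_fixed 𝒩 (RB.isSepParam_jF (M * q))
    (Cusp.isSepParam_jb M (IsLocalRing.ResidueField A) q hqM) hr hpk k hg hg' hD₀.symm (hfix σ)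

end Level

open Fermat.Agent.RED hiding GQ Kb in
/-- **[UNIP-W]** -/
theorem geo_unipN {N r : ℕ} [NeZero N] (hN : N.Prime) (hr : r.Prime) (hrN : r ≠ N)
    (AN : ValuationSubring Qb) (hAN : AN.LiesOverPrime N) {σ σ' : GQ}
    (hσ : σ ∈ AN.inertiaSubgroupIn ℚ) (hσ' : σ' ∈ AN.inertiaSubgroupIn ℚ) (k : ℕ) (z : JZero N)
    (hz : ∀ τ : GQ, τ • (r ^ k • z) = r ^ k • z) : σ' • (σ • z - z) = σ • z - z := by
  have : Fact N.Prime := ⟨hN⟩
  have hN2 : ¬ N ^ 2 ∣ N := by
    intro h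
    have h1 := Nat.le_of_dvd hN.pos h
    have h2 := hN.two_le
    nlinarith
  obtain ⟨M, hM, hqM, h49, hlev⟩ := SS.exists_level hN (dvd_refl N) hN2
  have : NeZero M := ⟨hM⟩
  have H : UnipW (N * aux N) r N := by
    rw [hlev]
    exact unipW_of_hasNodal hqM (SS.hasNodal_of_cuspOrd hqM h49 (SS.cuspOrd M N)) hr hrN
  have hB := heckeInputsAlong' N (aux N)
  have h1 : r ^ k • (σ • z - z) = 0 := by
    rw [nsmul_sub, ← smul_nsmul_comm, hz, sub_self]
  have hw : r ^ k • (σ' • (σ • z - z) - (σ • z - z)) = 0 := by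
    have h0 : σ' • (0 : JZero N) = 0 := map_zero (DistribSMul.toAddMonoidHom (JZero N) σ')
    rw [nsmul_sub, ← smul_nsmul_comm, h1, h0, sub_self]
  have hBw : Bstar N (aux N) hB (σ' • (σ • z - z) - (σ • z - z)) = 0 := by
    rw [map_sub, Bstar_smul, map_sub, Bstar_smul, sub_eq_zero]
    refine H AN hAN σ hσ σ' hσ' k _ (fun τ => ?_)
    rw [← map_nsmul, ← Bstar_smul, hz]
  exact sub_eq_zero.1 (Bstar_eq_zero_of_torsion N (aux N) (aux_eq N) hB _ (r ^ k)
    (pow_ne_zero k hr.ne_zero) hw hBw)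

end Fermat.Agent.MAZ
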